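import Mathlib

set_option autoImplicit false

/-!
# One step of the Eichler integral

For a holomorphic `h`-periodic function `f` on the upper half plane which tends to zero at `i∞`,
there is a holomorphic `h`-periodic function `E`, tending to zero at `i∞`, with `D E = f`, where
`D = (2πi)⁻¹ d/dz`.
-/

namespace Fermat.Agent.S22

open UpperHalfPlane hiding I
open Real Complex Function Filter Topology
open scoped Manifold
open Derivative

local notation "𝕢" => Periodic.qParam

theorem eichler_hasDerivAt_qParam (h : ℝ) (z : ℂ) :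
    HasDerivAt (𝕢 h) (2 * π * I / h * 𝕢 h z) z := by
  unfold Periodic.qParam
  have h1 : HasDerivAt (fun w : ℂ => 2 * π * I * w / h) (2 * π * I / h) z := by
    have := ((hasDerivAt_id z).const_mul (2 * π * I)).div_const (h : ℂ)
    simpa using this
  have := h1.cexp
  simpa [mul_comm] using this

theorem eichler_qParam_add_period {h : ℝ} (hh : h ≠ 0) (z : ℂ) : 𝕢 h (z + h) = 𝕢 h z := by
  unfold Periodic.qParam
  have hh' : (h : ℂ) ≠ 0 := by exact_mod_cast hh
  have : 2 * π * I * (z + h) / h = 2 * π * I * z / h + 2 * π * I := by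
    field_simp
  rw [this, Complex.exp_add, Complex.exp_two_pi_mul_I, mul_one]

/-- Existence of one Eichler integration step. -/
theorem exists_eichlerStep {h : ℝ} (hh : 0 < h) {f : ℍ → ℂ} (hf : MDiff f)
    (hper : Periodic (f ∘ ofComplex) h) (hzero : IsZeroAtImInfty f) :
    ∃ E : ℍ → ℂ, MDiff E ∧ Periodic (E ∘ ofComplex) h ∧ IsZeroAtImInfty E ∧
      normalizedDerivOfComplex E = f := by
  have hbdd : IsBoundedAtImInfty f := hzero.isBoundedAtImInfty
  have hφ : DifferentiableOn ℂ (cuspFunction h f) (Metric.ball 0 1) :=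
    differentiableOn_cuspFunction_ball hh hper hf hbdd
  have hφ0 : cuspFunction h f 0 = 0 := hzero.cuspFunction_apply_zero hh
  have hball : Metric.ball (0 : ℂ) 1 ∈ 𝓝 (0 : ℂ) := Metric.ball_mem_nhds 0 one_pos
  have hψ : DifferentiableOn ℂ (dslope (cuspFunction h f) 0) (Metric.ball 0 1) :=
    (Complex.differentiableOn_dslope hball).mpr hφ
  have hψ' : DifferentiableOn ℂ (fun q => (h : ℂ) • dslope (cuspFunction h f) 0 q)
      (Metric.ball 0 1) := hψ.const_smul (h : ℂ)
  obtain ⟨Ψ, hΨ0, hΨ⟩ := (hψ'.isExactOn_ball).with_val_at 0 0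
  have hqball : ∀ z : ℂ, 0 < z.im → 𝕢 h z ∈ Metric.ball (0 : ℂ) 1 := fun z hz => by
    simpa using Periodic.norm_qParam_lt_one hh hz
  -- the derivative of `Ψ ∘ 𝕢 h`
  have hderiv : ∀ (z : ℂ) (hz : 0 < z.im),
      HasDerivAt (Ψ ∘ 𝕢 h) (2 * π * I * f ⟨z, hz⟩) z := by
    intro z hz
    have h1 := (hΨ _ (hqball z hz)).comp z (eichler_hasDerivAt_qParam h z)
    refine h1.congr_deriv ?_
    have h2 : (𝕢 h z - 0) • dslope (cuspFunction h f) 0 (𝕢 h z) =
        cuspFunction h f (𝕢 h z) - cuspFunction h f 0 := sub_smul_dslope _ _ _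
    rw [hφ0, sub_zero, sub_zero] at h2
    have h3 : cuspFunction h f (𝕢 h z) = f ⟨z, hz⟩ := by
      have := eq_cuspFunction (h := h) (f := f) ⟨z, hz⟩ hh.ne' hper
      simpa using this
    rw [← h3, ← h2]
    have hh' : (h : ℂ) ≠ 0 := by exact_mod_cast hh.ne'
    simp only [smul_eq_mul]
    field_simp
  refine ⟨fun z => Ψ (𝕢 h z), ?_, ?_, ?_, ?_⟩
  · rw [UpperHalfPlane.mdifferentiable_iff]
    intro z hz
    have hz' : 0 < z.im := hz
    refine ((hderiv z hz').differentiableAt.differentiableWithinAt).congr ?_ ?_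
    · intro w hw
      have hw' : 0 < w.im := hw
      simp [Function.comp_apply, ofComplex_apply_of_im_pos hw']
    · simp [Function.comp_apply, ofComplex_apply_of_im_pos hz']
  · intro w
    by_cases hw : 0 < im w
    · have hw2 : 0 < im (w + h) := by simp [hw]
      simp only [Function.comp_apply, ofComplex_apply_of_im_pos hw2,
        ofComplex_apply_of_im_pos hw]
      congr 1
      exact eichler_qParam_add_period hh.ne' w
    · have hw' : im w ≤ 0 := not_lt.mp hw
      have hw2 : im (w + h) ≤ 0 := by simpa using hw'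
      simp [Function.comp_apply, ofComplex_apply_of_im_nonpos hw2,
        ofComplex_apply_of_im_nonpos hw']
  · have hcont : ContinuousAt Ψ 0 := (hΨ 0 (Metric.mem_ball_self one_pos)).continuousAt
    have := hcont.tendsto.comp (qParam_tendsto_atImInfty hh)
    rw [hΨ0] at this
    exact this
  · ext z
    unfold normalizedDerivOfComplex
    have hz : 0 < (z : ℂ).im := z.im_pos
    have heq : ((fun z : ℍ => Ψ (𝕢 h z)) ∘ ofComplex) =ᶠ[𝓝 (z : ℂ)] (Ψ ∘ 𝕢 h) := by
      have hopen : IsOpen {w : ℂ | 0 < w.im} := isOpen_lt continuous_const Complex.continuous_im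
      filter_upwards [hopen.mem_nhds hz] with w hw
      simp [Function.comp_apply, ofComplex_apply_of_im_pos hw]
    rw [heq.deriv_eq, (hderiv z hz).deriv]
    have h2 : (2 * π * I : ℂ) ≠ 0 := by
      simp [Real.pi_ne_zero, Complex.I_ne_zero]
    have h3 : (⟨(z : ℂ), hz⟩ : ℍ) = z := rfl
    rw [h3]
    field_simp

end Fermat.Agent.S22
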