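import Mathlib
import Fermat.Agent.S22.EichlerStep

set_option autoImplicit false

/-!
# The Eichler integral (PART A of item 64)

* `Dn n F`: the `n`-fold normalized derivative `((2πi)⁻¹ d/dz)^n F` of `F : ℍ → ℂ`.
* `exists_eichler`: every holomorphic `h`-periodic function vanishing at `i∞` is `Dn m G` for
  a holomorphic `h`-periodic function `G` vanishing at `i∞`.
* `exists_polynomial_of_Dn_eq_zero`: `Dn m H = 0` implies `H` is a polynomial of degree `< m`.
* `eq_zero_of_Dn_eq_zero`: if moreover `H` vanishes at `i∞` then `H = 0`.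
-/

namespace Fermat.Agent.S22

open UpperHalfPlane hiding I
open Real Complex Function Filter Topology
open scoped Manifold
open Derivative

/-- The `n`-fold normalized derivative. -/
noncomputable def Dn (n : ℕ) (F : ℍ → ℂ) : ℍ → ℂ := normalizedDerivOfComplex^[n] F

@[simp] theorem Dn_zero (F : ℍ → ℂ) : Dn 0 F = F := rfl

theorem Dn_succ (n : ℕ) (F : ℍ → ℂ) : Dn (n + 1) F = Dn n (normalizedDerivOfComplex F) := rfl

theorem Dn_succ' (n : ℕ) (F : ℍ → ℂ) : Dn (n + 1) F = normalizedDerivOfComplex (Dn n F) :=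
  Function.iterate_succ_apply' _ _ _

theorem Dn_one (F : ℍ → ℂ) : Dn 1 F = normalizedDerivOfComplex F := rfl

theorem Dn_add_index (m n : ℕ) (F : ℍ → ℂ) : Dn (m + n) F = Dn m (Dn n F) :=
  Function.iterate_add_apply _ _ _ _

theorem mdiff_Dn {F : ℍ → ℂ} (hF : MDiff F) (n : ℕ) : MDiff (Dn n F) := by
  induction n with
  | zero => exact hF
  | succ n ih => rw [Dn_succ']; exact normalizedDerivOfComplex_mdifferentiable ih

theorem Dn_add (n : ℕ) {F G : ℍ → ℂ} (hF : MDiff F) (hG : MDiff G) :
    Dn n (F + G) = Dn n F + Dn n G := by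
  induction n with
  | zero => rfl
  | succ n ih =>
    rw [Dn_succ', Dn_succ', Dn_succ', ih,
      normalizedDerivOfComplex_add _ _ (mdiff_Dn hF n) (mdiff_Dn hG n)]

theorem Dn_sub (n : ℕ) {F G : ℍ → ℂ} (hF : MDiff F) (hG : MDiff G) :
    Dn n (F - G) = Dn n F - Dn n G := by
  induction n with
  | zero => rfl
  | succ n ih =>
    rw [Dn_succ', Dn_succ', Dn_succ', ih,
      normalizedDerivOfComplex_sub _ _ (mdiff_Dn hF n) (mdiff_Dn hG n)]

theorem Dn_smul (n : ℕ) (c : ℂ) {F : ℍ → ℂ} (hF : MDiff F) :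
    Dn n (c • F) = c • Dn n F := by
  induction n with
  | zero => rfl
  | succ n ih =>
    rw [Dn_succ', Dn_succ', ih, normalizedDerivOfComplex_smul _ _ (mdiff_Dn hF n)]

theorem Dn_neg (n : ℕ) {F : ℍ → ℂ} (hF : MDiff F) : Dn n (-F) = -Dn n F := by
  induction n with
  | zero => rfl
  | succ n ih =>
    rw [Dn_succ', Dn_succ', ih, normalizedDerivOfComplex_neg _ (mdiff_Dn hF n)]

theorem Dn_zero_fun (n : ℕ) : Dn n (0 : ℍ → ℂ) = 0 := by
  induction n with
  | zero => rfl
  | succ n ih =>
    rw [Dn_succ', ih]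
    exact normalizedDerivOfComplex_const 0

/-! ### Periodicity in the two formats -/

theorem periodic_comp_ofComplex_of_vadd {h : ℝ} {g : ℍ → ℂ}
    (hper : ∀ τ : ℍ, g ((h : ℝ) +ᵥ τ) = g τ) : Periodic (g ∘ ofComplex) h := by
  intro w
  by_cases hw : 0 < im w
  · have hw2 : 0 < im (w + h) := by simp [hw]
    simp only [Function.comp_apply, ofComplex_apply_of_im_pos hw2,
      ofComplex_apply_of_im_pos hw]
    rw [← hper ⟨w, hw⟩]
    congr 1
    ext
    simp [add_comm]
  · have hw' : im w ≤ 0 := not_lt.mp hw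
    have hw2 : im (w + h) ≤ 0 := by simpa using hw'
    simp [Function.comp_apply, ofComplex_apply_of_im_nonpos hw2,
      ofComplex_apply_of_im_nonpos hw']

theorem vadd_of_periodic_comp_ofComplex {h : ℝ} {g : ℍ → ℂ}
    (hper : Periodic (g ∘ ofComplex) h) (τ : ℍ) : g ((h : ℝ) +ᵥ τ) = g τ := by
  have h1 := hper (τ : ℂ)
  have hτ : 0 < ((τ : ℂ) + h).im := by simpa using τ.im_pos
  simp only [Function.comp_apply, ofComplex_apply_of_im_pos hτ, ofComplex_apply] at h1
  rw [← h1]
  congr 1
  ext
  simp [add_comm]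

/-! ### A1: existence of the Eichler integral -/

/-- **A1.** Existence of the `m`-fold Eichler integral. -/
theorem exists_eichler {h : ℝ} (hh : 0 < h) (m : ℕ) {g : ℍ → ℂ} (hg : MDiff g)
    (hper : ∀ τ : ℍ, g ((h : ℝ) +ᵥ τ) = g τ) (hz : IsZeroAtImInfty g) :
    ∃ G : ℍ → ℂ, MDiff G ∧ (∀ τ : ℍ, G ((h : ℝ) +ᵥ τ) = G τ) ∧ IsZeroAtImInfty G ∧
      Dn m G = g := by
  induction m generalizing g with
  | zero => exact ⟨g, hg, hper, hz, rfl⟩
  | succ m ih =>
    obtain ⟨E, hE, hEper, hEz, hDE⟩ :=
      exists_eichlerStep hh hg (periodic_comp_ofComplex_of_vadd hper) hz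
    obtain ⟨G, hG, hGper, hGz, hDG⟩ :=
      ih hE (fun τ => vadd_of_periodic_comp_ofComplex hEper τ) hEz
    refine ⟨G, hG, hGper, hGz, ?_⟩
    rw [Dn_succ', hDG, hDE]

/-! ### A3: functions killed by `Dn m` are polynomials -/

open Polynomial in
/-- Antiderivative of a polynomial with control of the degree. -/
theorem exists_polynomial_antiderivative (m : ℕ) (P : ℂ[X]) (hP : P.degree < (m : WithBot ℕ)) :
    ∃ R : ℂ[X], derivative R = P ∧ R.degree < ((m + 1 : ℕ) : WithBot ℕ) := by
  refine ⟨∑ i ∈ Finset.range m, C (P.coeff i / ((i : ℂ) + 1)) * X ^ (i + 1), ?_, ?_⟩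
  · ext n
    rw [coeff_derivative, finsetSum_coeff]
    simp only [coeff_C_mul, coeff_X_pow]
    have hne : ((n : ℂ) + 1) ≠ 0 := by
      have : ((n : ℂ) + 1) = ((n + 1 : ℕ) : ℂ) := by push_cast; ring
      rw [this]
      exact_mod_cast Nat.succ_ne_zero n
    by_cases hn : n < m
    · rw [Finset.sum_eq_single n]
      · rw [if_pos rfl, mul_one]
        field_simp
      · intro i _ hin
        have : ¬ (n + 1 = i + 1) := fun h => hin (by omega)
        rw [if_neg this, mul_zero]
      · intro hn'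
        exact absurd (Finset.mem_range.mpr hn) hn'
    · have hcoeff : P.coeff n = 0 :=
        (degree_lt_iff_coeff_zero P m).mp hP n (not_lt.mp hn)
      rw [hcoeff, Finset.sum_eq_zero]
      · simp
      · intro i hi
        have him : i < m := Finset.mem_range.mp hi
        have : ¬ (n + 1 = i + 1) := fun h => by omega
        rw [if_neg this, mul_zero]
  · rw [degree_lt_iff_coeff_zero]
    intro n hn
    rw [finsetSum_coeff]
    apply Finset.sum_eq_zero
    intro i hi
    have him : i < m := Finset.mem_range.mp hi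
    have : ¬ (n = i + 1) := fun h => by omega
    rw [coeff_C_mul, coeff_X_pow, if_neg this, mul_zero]

open Polynomial in
/-- **A3.** A holomorphic function on `ℍ` killed by `Dn m` is a polynomial of degree `< m`. -/
theorem exists_polynomial_of_Dn_eq_zero {m : ℕ} {H : ℍ → ℂ} (hH : MDiff H)
    (h0 : Dn m H = 0) :
    ∃ P : Polynomial ℂ, P.degree < (m : WithBot ℕ) ∧ ∀ τ : ℍ, H τ = P.eval (τ : ℂ) := by
  induction m generalizing H with
  | zero =>
    refine ⟨0, by simp, fun τ => ?_⟩
    have : H = 0 := h0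
    simp [this]
  | succ m ih =>
    have hDH : MDiff (normalizedDerivOfComplex H) := normalizedDerivOfComplex_mdifferentiable hH
    obtain ⟨P, hPdeg, hP⟩ := ih hDH (by rw [← Dn_succ]; exact h0)
    have h2 : (2 * π * I : ℂ) ≠ 0 := by
      simp [Real.pi_ne_zero, Complex.I_ne_zero]
    have hPdeg' : (C (2 * π * I) * P).degree < (m : WithBot ℕ) := by
      rw [degree_C_mul h2]; exact hPdeg
    obtain ⟨R, hR, hRdeg⟩ := exists_polynomial_antiderivative m (C (2 * π * I) * P) hPdeg'
    -- `H - R` has zero derivative on the upper half plane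
    have hdiffH : DifferentiableOn ℂ (H ∘ ofComplex) upperHalfPlaneSet :=
      UpperHalfPlane.mdifferentiable_iff.mp hH
    have hdiff : DifferentiableOn ℂ (fun z : ℂ => (H ∘ ofComplex) z - R.eval z)
        upperHalfPlaneSet :=
      hdiffH.sub R.differentiable.differentiableOn
    have hderiv : Set.EqOn (deriv (fun z : ℂ => (H ∘ ofComplex) z - R.eval z)) 0
        upperHalfPlaneSet := by
      intro z hz
      have hz' : 0 < z.im := hz
      have hd1 : DifferentiableAt ℂ (H ∘ ofComplex) z :=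
        hdiffH.differentiableAt (isOpen_upperHalfPlaneSet.mem_nhds hz)
      have hP1 := hP ⟨z, hz'⟩
      unfold normalizedDerivOfComplex at hP1
      have hP2 : deriv (H ∘ ofComplex) z = 2 * π * I * P.eval z := by
        have : deriv (H ∘ ofComplex) z = 2 * π * I * ((2 * π * I)⁻¹ * deriv (H ∘ ofComplex) z) := by
          field_simp
        rw [this]
        congr 1
      have hd2 : deriv (fun z : ℂ => R.eval z) z = 2 * π * I * P.eval z := by
        rw [Polynomial.deriv, hR]
        simp
      simp only [Pi.zero_apply]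
      rw [deriv_fun_sub hd1 R.differentiable.differentiableAt, hP2, hd2, sub_self]
    have hconst : ∀ {x y : ℂ}, x ∈ upperHalfPlaneSet → y ∈ upperHalfPlaneSet →
        (H ∘ ofComplex) x - R.eval x = (H ∘ ofComplex) y - R.eval y := fun {x y} hx hy =>
      isOpen_upperHalfPlaneSet.is_const_of_deriv_eq_zero
        ((convex_halfSpace_im_gt 0).isPreconnected) hdiff hderiv hx hy
    -- the constant
    have hI : (Complex.I : ℂ) ∈ upperHalfPlaneSet := by simp [upperHalfPlaneSet]
    refine ⟨R + C ((H ∘ ofComplex) Complex.I - R.eval Complex.I), ?_, fun τ => ?_⟩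
    · refine lt_of_le_of_lt (degree_add_le _ _) (max_lt hRdeg ?_)
      exact lt_of_le_of_lt degree_C_le (by exact_mod_cast Nat.succ_pos m)
    · have hτ : (τ : ℂ) ∈ upperHalfPlaneSet := τ.im_pos
      have := hconst hτ hI
      simp only [Function.comp_apply, ofComplex_apply] at this
      simp only [eval_add, eval_C, Function.comp_apply]
      linear_combination this

/-! ### A2: uniqueness -/

open Polynomial in
/-- A polynomial which tends to zero at `i∞` is zero. -/
theorem polynomial_eq_zero_of_isZeroAtImInfty (P : ℂ[X])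
    (hP : IsZeroAtImInfty (fun τ : ℍ => P.eval (τ : ℂ))) : P = 0 := by
  have hP' : Tendsto (fun τ : ℍ => P.eval (τ : ℂ)) atImInfty (𝓝 0) := hP
  by_cases hdeg : 0 < P.degree
  · exfalso
    have hnorm : Tendsto (fun τ : ℍ => ‖(τ : ℂ)‖) atImInfty atTop := by
      refine tendsto_atTop_mono (fun τ => ?_) tendsto_comap
      · exact (Complex.abs_im_le_norm (τ : ℂ)).trans' (le_abs_self _)
    have h1 := Polynomial.tendsto_norm_atTop P hdeg hnorm
    have h2 : Tendsto (fun τ : ℍ => ‖P.eval (τ : ℂ)‖) atImInfty (𝓝 0) := by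
      simpa using hP'.norm
    exact not_tendsto_nhds_of_tendsto_atTop h1 _ h2
  · have hC : P = C (P.coeff 0) := eq_C_of_degree_le_zero (not_lt.mp hdeg)
    rw [hC] at hP'
    simp only [eval_C] at hP'
    have : P.coeff 0 = 0 := tendsto_nhds_unique tendsto_const_nhds hP'
    rw [hC, this, map_zero]

/-- **A2.** A holomorphic function on `ℍ` killed by `Dn m` and vanishing at `i∞` is zero. -/
theorem eq_zero_of_Dn_eq_zero {m : ℕ} {H : ℍ → ℂ} (hH : MDiff H) (h0 : Dn m H = 0)
    (hz : IsZeroAtImInfty H) : H = 0 := by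
  obtain ⟨P, -, hP⟩ := exists_polynomial_of_Dn_eq_zero hH h0
  have hP0 : P = 0 := by
    apply polynomial_eq_zero_of_isZeroAtImInfty
    have : (fun τ : ℍ => P.eval (τ : ℂ)) = H := by
      ext τ
      exact (hP τ).symm
    rw [this]
    exact hz
  ext τ
  rw [hP τ, hP0]
  simp

/-- Two holomorphic functions on `ℍ` with the same `Dn m`, both vanishing at `i∞`, are equal. -/
theorem eq_of_Dn_eq {m : ℕ} {F G : ℍ → ℂ} (hF : MDiff F) (hG : MDiff G)
    (hFG : Dn m F = Dn m G) (hFz : IsZeroAtImInfty F) (hGz : IsZeroAtImInfty G) : F = G := by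
  have h1 : F - G = 0 := by
    apply eq_zero_of_Dn_eq_zero (m := m) (hF.sub hG)
    · rw [Dn_sub m hF hG, hFG, sub_self]
    · have : IsZeroAtImInfty (F + -G) := hFz.add hGz.neg
      rwa [← sub_eq_add_neg] at this
  exact sub_eq_zero.mp h1

end Fermat.Agent.S22
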