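import Mathlib
import Fermat.Agent.S22.EichlerInt

/-!
# Bol's identity (item 64, part B1 of the S22 plan)

For `g ∈ GL₂(ℝ)` with positive determinant, `F : ℍ → ℂ` holomorphic and `n : ℕ`:

  `Dn n (F ∣[1 - n] g) = ((det g)^n)⁻¹ • (Dn n F) ∣[1 + n] g`

where `Dn n = D^[n]` and `D = (2πi)⁻¹ d/dτ` (Mathlib's `Derivative.normalizedDerivOfComplex`).
-/

set_option autoImplicit false

namespace Fermat.Agent.S22

open UpperHalfPlane hiding I
open Real Complex
open scoped Manifold MatrixGroups ModularForm Topology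
open Derivative

noncomputable section

/-- The function `τ ↦ denom g τ = c τ + d` on the upper half plane. -/
def denomFun (g : GL (Fin 2) ℝ) : ℍ → ℂ := fun τ => denom g τ

theorem denomFun_apply (g : GL (Fin 2) ℝ) (τ : ℍ) : denomFun g τ = denom g τ := rfl

theorem mdiff_denomFun (g : GL (Fin 2) ℝ) : MDiff (denomFun g) :=
  mdifferentiable_denom g

/-- `D (c τ + d) = (2πi)⁻¹ c`. -/
theorem D_denomFun (g : GL (Fin 2) ℝ) :
    normalizedDerivOfComplex (denomFun g) = fun _ => (2 * π * I)⁻¹ * (g 1 0 : ℂ) := by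
  ext z
  simp only [normalizedDerivOfComplex]
  congr 1
  have hd : HasDerivAt (fun w : ℂ => denom g w) (g 1 0 : ℂ) (z : ℂ) := by
    simpa [denom] using ((hasDerivAt_id (z : ℂ)).const_mul (g 1 0 : ℂ)).add_const (g 1 1 : ℂ)
  have hev : (denomFun g ∘ ofComplex) =ᶠ[𝓝 (z : ℂ)] fun w : ℂ => denom g w := by
    filter_upwards [isOpen_upperHalfPlaneSet.mem_nhds z.im_pos] with w hw
    simp [denomFun, Function.comp_apply, ofComplex_apply_of_im_pos hw]
  exact (hd.congr_of_eventuallyEq hev).deriv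

/-- Leibniz rule for multiplication by the linear function `j = denom g`. -/
theorem Dn_succ_denomFun_mul (g : GL (Fin 2) ℝ) (m : ℕ) {H : ℍ → ℂ} (hH : MDiff H) :
    Dn (m + 1) (denomFun g * H) =
      denomFun g * Dn (m + 1) H + (((m : ℂ) + 1) * ((2 * π * I)⁻¹ * (g 1 0 : ℂ))) • Dn m H := by
  induction m generalizing H with
  | zero =>
    rw [Dn_one, Dn_one, Dn_zero, normalizedDerivOfComplex_mul _ _ (mdiff_denomFun g) hH,
      D_denomFun]
    ext z
    simp only [Pi.add_apply, Pi.mul_apply, Pi.smul_apply, smul_eq_mul, Nat.cast_zero, zero_add,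
      one_mul]
    ring
  | succ m ih =>
    have hDH : MDiff (normalizedDerivOfComplex H) := normalizedDerivOfComplex_mdifferentiable hH
    have h1 : normalizedDerivOfComplex (denomFun g * H) =
        ((2 * π * I)⁻¹ * (g 1 0 : ℂ)) • H + denomFun g * normalizedDerivOfComplex H := by
      rw [normalizedDerivOfComplex_mul _ _ (mdiff_denomFun g) hH, D_denomFun]
      ext z
      simp only [Pi.add_apply, Pi.mul_apply, Pi.smul_apply, smul_eq_mul]
    rw [Dn_succ (m + 1) (denomFun g * H), h1,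
      Dn_add (m + 1) (hH.const_smul _) ((mdiff_denomFun g).mul hDH),
      Dn_smul (m + 1) _ hH, ih hDH, ← Dn_succ (m + 1) H, ← Dn_succ m H]
    ext z
    simp only [Pi.add_apply, Pi.mul_apply, Pi.smul_apply, smul_eq_mul, Nat.cast_add,
      Nat.cast_one]
    ring

/-- Lowering the weight of the slash action by one amounts to multiplying by `det⁻¹ · denom`. -/
theorem slash_sub_one (k : ℤ) (F : ℍ → ℂ) {g : GL (Fin 2) ℝ} (hg : 0 < g.val.det) :
    F ∣[k - 1] g = ((g.val.det : ℂ))⁻¹ • (denomFun g * F ∣[k] g) := by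
  have hdet : g.det.val = g.val.det := Matrix.GeneralLinearGroup.val_det_apply g
  have hdetℂ : (g.val.det : ℂ) ≠ 0 := Complex.ofReal_ne_zero.mpr hg.ne'
  ext z
  have hz := denom_ne_zero g z
  simp only [ModularForm.slash_apply, Pi.smul_apply, Pi.mul_apply, smul_eq_mul, denomFun_apply,
    hdet, abs_of_pos hg]
  rw [show k - 1 - 1 = (k - 1) - 1 by ring, zpow_sub_one₀ hdetℂ (k - 1),
    show -(k - 1) = -k + 1 by ring, zpow_add_one₀ hz]
  ring

/-- **Bol's identity.** -/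
theorem bol (n : ℕ) {F : ℍ → ℂ} (hF : MDiff F) {g : GL (Fin 2) ℝ} (hg : 0 < g.val.det) :
    Dn n (F ∣[(1 : ℤ) - n] g) = (((g.val.det : ℂ)) ^ n)⁻¹ • ((Dn n F) ∣[(1 : ℤ) + n] g) := by
  have hdetℂ : (g.val.det : ℂ) ≠ 0 := Complex.ofReal_ne_zero.mpr hg.ne'
  induction n with
  | zero => simp
  | succ n ih =>
    -- `H = F ∣[1 - n] g`, `K = (Dn n F) ∣[1 + n] g`, `L = (Dn (n+1) F) ∣[n + 3] g`
    set H : ℍ → ℂ := F ∣[(1 : ℤ) - n] g with hHdef
    have hH : MDiff H := hF.slash _ g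
    have hK : MDiff ((Dn n F) ∣[(1 : ℤ) + n] g) := (mdiff_Dn hF n).slash _ g
    have e1 : F ∣[(1 : ℤ) - ((n + 1 : ℕ) : ℤ)] g =
        ((g.val.det : ℂ))⁻¹ • (denomFun g * H) := by
      rw [show (1 : ℤ) - ((n + 1 : ℕ) : ℤ) = ((1 : ℤ) - n) - 1 by push_cast; ring]
      exact slash_sub_one _ F hg
    have e2 : (Dn (n + 1) F) ∣[(1 : ℤ) + n + 1] g =
        ((g.val.det : ℂ))⁻¹ • (denomFun g * (Dn (n + 1) F) ∣[(1 : ℤ) + n + 2] g) := by
      rw [show (1 : ℤ) + n + 1 = ((1 : ℤ) + n + 2) - 1 by ring]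
      exact slash_sub_one _ _ hg
    have e3 : normalizedDerivOfComplex ((Dn n F) ∣[(1 : ℤ) + n] g) =
        fun z : ℍ => (g.val.det : ℂ)⁻¹ * ((Dn (n + 1) F) ∣[(1 : ℤ) + n + 2] g) z -
          (((1 : ℤ) + n : ℤ) : ℂ) * (2 * π * I)⁻¹ * (g 1 0 / denom g z) *
            ((Dn n F) ∣[(1 : ℤ) + n] g) z := by
      rw [normalizedDerivOfComplex_slash (mdiff_Dn hF n) hg, Dn_succ']
    rw [e1, Dn_smul (n + 1) _ ((mdiff_denomFun g).mul hH), Dn_succ_denomFun_mul g n hH,
      Dn_succ' n H, ih, normalizedDerivOfComplex_smul _ _ hK, e3,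
      show (1 : ℤ) + ((n + 1 : ℕ) : ℤ) = (1 : ℤ) + n + 1 by push_cast; ring, e2]
    ext z
    have hz := denom_ne_zero g z
    simp only [Pi.add_apply, Pi.mul_apply, Pi.smul_apply, smul_eq_mul, denomFun_apply]
    push_cast
    field_simp
    ring

/-- Bol's identity for `SL(2, ℤ)`. -/
theorem bol_SL (n : ℕ) {F : ℍ → ℂ} (hF : MDiff F) (γ : SL(2, ℤ)) :
    Dn n (F ∣[(1 : ℤ) - n] γ) = (Dn n F) ∣[(1 : ℤ) + n] γ := by
  have hdet : (γ : GL (Fin 2) ℝ).val.det = 1 := by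
    rw [← Matrix.GeneralLinearGroup.val_det_apply]; simp
  have := bol n hF (g := (γ : GL (Fin 2) ℝ)) (by rw [hdet]; exact one_pos)
  rw [hdet] at this
  simpa [ModularForm.SL_slash] using this

end

end Fermat.Agent.S22
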