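import Mathlib
import Fermat.Prelude.Def_CuspForm_HeckeAlgebra
import Fermat.Agent.S22.EichlerInt

/-!
# S22, item 65: compatibility of the Eichler integral with the Hecke operators

If `F` is holomorphic on `ℍ`, vanishes at `i∞` and `Dn m F = f`, then
`p ^ m • heckeT (1 - m) p F` is holomorphic, vanishes at `i∞` and has `Dn m` equal to
`heckeT (1 + m) p f`; similarly for `heckeU`.  By uniqueness of the Eichler integral
(`eq_of_Dn_eq`) this identifies the Eichler integral of `T_p f`.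

Bol's identity enters as the hypothesis `BolStatement`.
-/

set_option autoImplicit false

namespace Fermat.Agent.S22

open UpperHalfPlane hiding I
open Complex Function Filter Topology ModularForm
open scoped Manifold MatrixGroups

/-- The statement of Bol's identity (proved in `Bol.lean`). -/
def BolStatement : Prop :=
  ∀ (n : ℕ) (F : ℍ → ℂ), MDiff F → ∀ g : GL (Fin 2) ℝ, 0 < g.det.val →
    Dn n (F ∣[(1 : ℤ) - n] g) = ((g.det.val : ℂ) ^ n)⁻¹ • ((Dn n F) ∣[(1 : ℤ) + n] g)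

theorem Dn_finset_sum {ι : Type} (s : Finset ι) (n : ℕ) (F : ι → ℍ → ℂ)
    (hF : ∀ i ∈ s, MDiff (F i)) :
    Dn n (∑ i ∈ s, F i) = ∑ i ∈ s, Dn n (F i) := by
  classical
  induction s using Finset.induction_on with
  | empty => simpa using Dn_zero_fun n
  | insert a s ha ih =>
    have hs : ∀ i ∈ s, MDiff (F i) := fun i hi => hF i (Finset.mem_insert_of_mem hi)
    have hsum : MDiff (∑ i ∈ s, F i) := MDifferentiable.sum hs
    rw [Finset.sum_insert ha, Finset.sum_insert ha,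
      Dn_add n (hF a (Finset.mem_insert_self a s)) hsum, ih hs]

theorem mdiff_finset_sum {ι : Type} (s : Finset ι) (F : ι → ℍ → ℂ)
    (hF : ∀ i ∈ s, MDiff (F i)) : MDiff (∑ i ∈ s, F i) :=
  MDifferentiable.sum hF

theorem isZeroAtImInfty_finset_sum {ι : Type*} (s : Finset ι) (F : ι → ℍ → ℂ)
    (hF : ∀ i ∈ s, IsZeroAtImInfty (F i)) : IsZeroAtImInfty (∑ i ∈ s, F i) := by
  classical
  induction s using Finset.induction_on with
  | empty =>
    simp only [Finset.sum_empty]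
    exact zero_zeroAtFilter _
  | insert a s ha ih =>
    rw [Finset.sum_insert ha]
    exact (hF a (Finset.mem_insert_self a s)).add
      (ih fun i hi => hF i (Finset.mem_insert_of_mem hi))


section Hecke

variable (hbol : BolStatement)
include hbol

/-- `Dn m` of a slash by a matrix of determinant `p`. -/
theorem Dn_slash_of_det (m : ℕ) {F : ℍ → ℂ} (hF : MDiff F) (g : GL (Fin 2) ℝ) {p : ℕ}
    (hp : p ≠ 0) (hdet : (g.det : ℝ) = p) :
    Dn m (((p : ℂ) ^ m) • (F ∣[(1 : ℤ) - m] g)) = (Dn m F) ∣[(1 : ℤ) + m] g := by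
  have hpos : 0 < g.det.val := by rw [hdet]; exact_mod_cast Nat.pos_of_ne_zero hp
  have hp' : (p : ℂ) ^ m ≠ 0 := pow_ne_zero _ (by exact_mod_cast hp)
  rw [Dn_smul m _ (hF.slash _ g), hbol m F hF g hpos, hdet]
  simp only [Complex.ofReal_natCast]
  rw [smul_smul, mul_inv_cancel₀ hp', one_smul]

theorem Dn_heckeU (m : ℕ) {F : ℍ → ℂ} (hF : MDiff F) {p : ℕ} (hp : p ≠ 0) :
    Dn m (((p : ℂ) ^ m) • heckeU ((1 : ℤ) - m) p F) = heckeU ((1 : ℤ) + m) p (Dn m F) := by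
  rw [heckeU_def, heckeU_def, Finset.smul_sum,
    Dn_finset_sum _ _ _ (fun j _ => (hF.slash _ _).const_smul _)]
  exact Finset.sum_congr rfl fun j _ =>
    Dn_slash_of_det hbol m hF _ hp (det_heckeMatrix hp j)

theorem Dn_heckeT (m : ℕ) {F : ℍ → ℂ} (hF : MDiff F) {p : ℕ} (hp : p ≠ 0) :
    Dn m (((p : ℂ) ^ m) • heckeT ((1 : ℤ) - m) p F) = heckeT ((1 : ℤ) + m) p (Dn m F) := by
  have h1 : MDiff (((p : ℂ) ^ m) • heckeU ((1 : ℤ) - m) p F) := by
    rw [heckeU_def]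
    exact (MDifferentiable.sum fun j _ => hF.slash _ _).const_smul _
  have h2 : MDiff (((p : ℂ) ^ m) • (F ∣[(1 : ℤ) - m] heckeDiagMatrix p)) :=
    (hF.slash _ _).const_smul _
  rw [heckeT_eq_heckeU_add, heckeT_eq_heckeU_add, smul_add, Dn_add m h1 h2,
    Dn_heckeU hbol m hF hp, Dn_slash_of_det hbol m hF _ hp (det_heckeDiagMatrix hp)]

end Hecke

theorem mdiff_heckeU (k : ℤ) (p : ℕ) {F : ℍ → ℂ} (hF : MDiff F) : MDiff (heckeU k p F) := by
  rw [heckeU_def]
  exact MDifferentiable.sum fun j _ => hF.slash _ _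

theorem mdiff_heckeT (k : ℤ) (p : ℕ) {F : ℍ → ℂ} (hF : MDiff F) : MDiff (heckeT k p F) := by
  rw [heckeT_eq_heckeU_add]
  exact (mdiff_heckeU k p hF).add (hF.slash _ _)

theorem heckeMatrix_apply_one_zero (p j : ℕ) : (heckeMatrix p j : GL (Fin 2) ℝ) 1 0 = 0 := by
  rcases eq_or_ne p 0 with rfl | hp
  · simp
  · show ((heckeMatrix p j : GL (Fin 2) ℝ) : Matrix (Fin 2) (Fin 2) ℝ) 1 0 = 0
    rw [val_heckeMatrix hp]; simp

theorem heckeDiagMatrix_apply_one_zero (p : ℕ) : (heckeDiagMatrix p : GL (Fin 2) ℝ) 1 0 = 0 := by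
  rcases eq_or_ne p 0 with rfl | hp
  · simp
  · show ((heckeDiagMatrix p : GL (Fin 2) ℝ) : Matrix (Fin 2) (Fin 2) ℝ) 1 0 = 0
    rw [val_heckeDiagMatrix hp]; simp

theorem isZeroAtImInfty_heckeU (k : ℤ) (p : ℕ) {F : ℍ → ℂ} (hF : IsZeroAtImInfty F) :
    IsZeroAtImInfty (heckeU k p F) := by
  rw [heckeU_def]
  exact isZeroAtImInfty_finset_sum _ _ fun j _ =>
    IsZeroAtImInfty.slash k (heckeMatrix_apply_one_zero p j) hF

theorem isZeroAtImInfty_heckeT (k : ℤ) (p : ℕ) {F : ℍ → ℂ} (hF : IsZeroAtImInfty F) :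
    IsZeroAtImInfty (heckeT k p F) := by
  rw [heckeT_eq_heckeU_add]
  exact (isZeroAtImInfty_heckeU k p hF).add
    (IsZeroAtImInfty.slash k (heckeDiagMatrix_apply_one_zero p) hF)

theorem isZeroAtImInfty_const_smul (c : ℂ) {F : ℍ → ℂ} (hF : IsZeroAtImInfty F) :
    IsZeroAtImInfty (c • F) :=
  ZeroAtFilter.smul c hF

/-- **Hecke compatibility, `T_p`.** If `F, G` are holomorphic, vanish at `i∞`, `Dn m F = f` and
`Dn m G = heckeT (1 + m) p f`, then `G = p ^ m • heckeT (1 - m) p F`. -/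
theorem eichler_heckeT (hbol : BolStatement) (m : ℕ) {p : ℕ} (hp : p ≠ 0) {f F G : ℍ → ℂ}
    (hF : MDiff F) (hFz : IsZeroAtImInfty F) (hFf : Dn m F = f)
    (hG : MDiff G) (hGz : IsZeroAtImInfty G) (hGf : Dn m G = heckeT ((1 : ℤ) + m) p f) :
    G = ((p : ℂ) ^ m) • heckeT ((1 : ℤ) - m) p F := by
  refine eq_of_Dn_eq (m := m) hG ((mdiff_heckeT _ p hF).const_smul _) ?_ hGz
    (isZeroAtImInfty_const_smul _ (isZeroAtImInfty_heckeT _ p hFz))
  rw [hGf, Dn_heckeT hbol m hF hp, hFf]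

/-- **Hecke compatibility, `U_p`.** -/
theorem eichler_heckeU (hbol : BolStatement) (m : ℕ) {p : ℕ} (hp : p ≠ 0) {f F G : ℍ → ℂ}
    (hF : MDiff F) (hFz : IsZeroAtImInfty F) (hFf : Dn m F = f)
    (hG : MDiff G) (hGz : IsZeroAtImInfty G) (hGf : Dn m G = heckeU ((1 : ℤ) + m) p f) :
    G = ((p : ℂ) ^ m) • heckeU ((1 : ℤ) - m) p F := by
  refine eq_of_Dn_eq (m := m) hG ((mdiff_heckeU _ p hF).const_smul _) ?_ hGz
    (isZeroAtImInfty_const_smul _ (isZeroAtImInfty_heckeU _ p hFz))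
  rw [hGf, Dn_heckeU hbol m hF hp, hFf]

end Fermat.Agent.S22
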