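import Mathlib
import Fermat.Agent.S22.Bol
import Fermat.Agent.S22.HeckeCompat

/-!
# S22, item 65: Hecke compatibility of the Eichler integral, unconditional form
-/

set_option autoImplicit false

namespace Fermat.Agent.S22

open UpperHalfPlane hiding I
open Complex Function Filter Topology ModularForm
open scoped Manifold MatrixGroups

/-- Bol's identity in the form used by `HeckeCompat.lean`. -/
theorem bolStatement : BolStatement := by
  intro n F hF g hg
  have hg' : 0 < g.val.det := by
    rwa [← Matrix.GeneralLinearGroup.val_det_apply]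
  have h := bol n hF hg'
  rw [← Matrix.GeneralLinearGroup.val_det_apply] at h
  exact h

/-- **Hecke compatibility, `T_p`.** -/
theorem eichler_heckeT' (m : ℕ) {p : ℕ} (hp : p ≠ 0) {f F G : ℍ → ℂ}
    (hF : MDiff F) (hFz : IsZeroAtImInfty F) (hFf : Dn m F = f)
    (hG : MDiff G) (hGz : IsZeroAtImInfty G) (hGf : Dn m G = heckeT ((1 : ℤ) + m) p f) :
    G = ((p : ℂ) ^ m) • heckeT ((1 : ℤ) - m) p F :=
  eichler_heckeT bolStatement m hp hF hFz hFf hG hGz hGf

/-- **Hecke compatibility, `U_p`.** -/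
theorem eichler_heckeU' (m : ℕ) {p : ℕ} (hp : p ≠ 0) {f F G : ℍ → ℂ}
    (hF : MDiff F) (hFz : IsZeroAtImInfty F) (hFf : Dn m F = f)
    (hG : MDiff G) (hGz : IsZeroAtImInfty G) (hGf : Dn m G = heckeU ((1 : ℤ) + m) p f) :
    G = ((p : ℂ) ^ m) • heckeU ((1 : ℤ) - m) p F :=
  eichler_heckeU bolStatement m hp hF hFz hFf hG hGz hGf

end Fermat.Agent.S22
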