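import Mathlib
import Fermat.Prelude.Thm_ModularForm_sturm_bound_Gamma0
import Fermat.Prelude.Thm_Subgroup_IsArithmetic_exists_nat_mem_strictPeriods_conj
import Fermat.Agent.S22.EichlerInt

set_option autoImplicit false

/-!
# Injectivity of the period map (B3 of item 64)

If the Eichler integral `F` of a cusp form `f` of weight `m + 1` on `Γ₀(N)` (`m ≥ 1`) is invariant
under the weight `1 - m` slash action of `Γ₀(N)`, then `f = 0`.
-/

namespace Fermat.Agent.S22

open UpperHalfPlane hiding I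
open Real Complex Function Filter Topology Matrix.SpecialLinearGroup
open scoped Manifold MatrixGroups ModularForm Pointwise
open Derivative

/-- The image of `Γ₀(N)` in `GL₂(ℝ)`. -/
abbrev Gamma0GL (N : ℕ) : Subgroup (GL (Fin 2) ℝ) :=
  Subgroup.map (mapGL ℝ) (CongruenceSubgroup.Gamma0 N)

open Polynomial in
/-- A polynomial which is periodic on the upper half plane is constant. -/
theorem polynomial_const_of_periodic (P : ℂ[X]) {h : ℝ} (hh : 0 < h)
    (hper : ∀ τ : ℍ, P.eval (((h : ℝ) +ᵥ τ : ℍ) : ℂ) = P.eval (τ : ℂ)) :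
    P = C (P.eval Complex.I) := by
  have hroots : ∀ n : ℕ, P.eval (Complex.I + n * h) = P.eval Complex.I := by
    intro n
    induction n with
    | zero => simp
    | succ n ih =>
      have him : 0 < (Complex.I + n * h : ℂ).im := by simp
      have := hper ⟨Complex.I + n * h, him⟩
      rw [← ih, ← this]
      congr 1
      simp only [coe_vadd]
      push_cast
      ring
  have hQ : P - C (P.eval Complex.I) = 0 := by
    apply Polynomial.eq_zero_of_infinite_isRoot
    have hinj : Function.Injective (fun n : ℕ => (Complex.I + n * h : ℂ)) := by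
      intro a b hab
      have h1 : ((a : ℂ) * h) = (b : ℂ) * h := by simpa using hab
      have hh' : (h : ℂ) ≠ 0 := by exact_mod_cast hh.ne'
      have h2 : (a : ℂ) = b := mul_right_cancel₀ hh' h1
      exact_mod_cast h2
    refine Set.infinite_of_injective_forall_mem hinj (fun n => ?_)
    simp [Polynomial.IsRoot, hroots n]
  exact sub_eq_zero.mp hQ

/-- The slash translates of an invariant Eichler integral are bounded at `i∞`. -/
theorem eichler_slash_isBoundedAtImInfty {N : ℕ} [NeZero N] {m : ℕ}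
    (f : CuspForm (CongruenceSubgroup.Gamma0 N) ((m : ℤ) + 1)) (F : ℍ → ℂ) (hF : MDiff F)
    (hDF : Dn m F = f)
    (hinv : ∀ γ ∈ CongruenceSubgroup.Gamma0 N, F ∣[(1 : ℤ) - m] (mapGL ℝ γ) = F)
    (γ : SL(2, ℤ))
    (hbol : Dn m (F ∣[(1 : ℤ) - m] (mapGL ℝ γ)) = (Dn m F) ∣[(1 : ℤ) + m] (mapGL ℝ γ)) :
    IsBoundedAtImInfty (F ∣[(1 : ℤ) - m] (mapGL ℝ γ)) := by
  let sif : SlashInvariantForm (Gamma0GL N) ((1 : ℤ) - m) :=
    { toFun := F
      slash_action_eq' := fun g hg => by
        obtain ⟨γ', hγ', rfl⟩ := hg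
        exact hinv γ' hγ' }
  obtain ⟨M, hM0, hM⟩ := Subgroup.IsArithmetic.exists_nat_mem_strictPeriods_conj (Gamma0GL N)
  have hper := hM γ⁻¹
  rw [map_inv] at hper
  have hM0' : (0 : ℝ) < (M : ℝ) := by exact_mod_cast hM0
  let G := SlashInvariantForm.translate sif (mapGL ℝ γ)
  let fg := CuspForm.translate f (mapGL ℝ γ)
  have hGcoe : ⇑G = F ∣[(1 : ℤ) - m] (mapGL ℝ γ) := rfl
  have hfgcoe : ⇑fg = ⇑f ∣[(m : ℤ) + 1] (mapGL ℝ γ) := rfl
  have hGper : ∀ τ : ℍ, G (((M : ℝ)) +ᵥ τ) = G τ := fun τ =>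
    SlashInvariantForm.vAdd_apply_of_mem_strictPeriods G τ hper
  have hfgper : ∀ τ : ℍ, fg (((M : ℝ)) +ᵥ τ) = fg τ := fun τ =>
    SlashInvariantForm.vAdd_apply_of_mem_strictPeriods fg τ hper
  have hfgz : IsZeroAtImInfty (⇑fg) := by
    have h1 := CuspFormClass.zero_at_infty_slash f γ
    rw [ModularForm.SL_slash] at h1
    rw [hfgcoe]
    exact h1
  have hfgmd : MDiff (⇑fg) := CuspFormClass.holo fg
  obtain ⟨E, hE, hEper, hEz, hDE⟩ := exists_eichler hM0' m hfgmd hfgper hfgz
  have hGmd : MDiff (⇑G) := by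
    rw [hGcoe]
    exact hF.slash _ _
  have hD0 : Dn m (⇑G - E) = 0 := by
    rw [Dn_sub m hGmd hE, hDE, hGcoe, hbol, hDF, hfgcoe, add_comm (1 : ℤ) (m : ℤ), sub_self]
  obtain ⟨P, -, hP⟩ := exists_polynomial_of_Dn_eq_zero (hGmd.sub hE) hD0
  have hPper : ∀ τ : ℍ, P.eval ((((M : ℝ)) +ᵥ τ : ℍ) : ℂ) = P.eval (τ : ℂ) := by
    intro τ
    rw [← hP, ← hP]
    simp only [Pi.sub_apply]
    rw [hGper, hEper]
  have hPc := polynomial_const_of_periodic P hM0' hPper
  have hGE : F ∣[(1 : ℤ) - m] (mapGL ℝ γ) = E + fun _ => P.eval Complex.I := by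
    ext τ
    have h1 := hP τ
    rw [hPc] at h1
    simp only [Pi.sub_apply, Polynomial.eval_C, hGcoe] at h1
    simp only [Pi.add_apply]
    linear_combination h1
  rw [hGE]
  exact hEz.isBoundedAtImInfty.add (Filter.const_boundedAtFilter _ _)

/-- **B3.** Injectivity of the period map: if the Eichler integral `F` of a cusp form `f` of
weight `m + 1 ≥ 2` on `Γ₀(N)` is invariant under the weight `1 - m` action of `Γ₀(N)`,
then `f = 0`. The hypothesis `hbol` is Bol's identity for elements of `SL(2, ℤ)`. -/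
theorem eichler_injective_core {N : ℕ} [NeZero N] {m : ℕ} (hm : 1 ≤ m)
    (f : CuspForm (CongruenceSubgroup.Gamma0 N) ((m : ℤ) + 1)) (F : ℍ → ℂ) (hF : MDiff F)
    (hFz : IsZeroAtImInfty F) (hDF : Dn m F = f)
    (hbol : ∀ γ : SL(2, ℤ),
      Dn m (F ∣[(1 : ℤ) - m] (mapGL ℝ γ)) = (Dn m F) ∣[(1 : ℤ) + m] (mapGL ℝ γ))
    (hinv : ∀ γ ∈ CongruenceSubgroup.Gamma0 N, F ∣[(1 : ℤ) - m] (mapGL ℝ γ) = F) :
    f = 0 := by
  let Fmf : ModularForm (Gamma0GL N) ((1 : ℤ) - m) :=
    { toFun := F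
      slash_action_eq' := fun g hg => by
        obtain ⟨γ', hγ', rfl⟩ := hg
        exact hinv γ' hγ'
      holo' := hF
      bdd_at_cusps' := fun {c} hc => by
        rw [Subgroup.IsArithmetic.isCusp_iff_isCusp_SL2Z] at hc
        rw [OnePoint.isBoundedAt_iff_forall_SL2Z hc]
        intro γ _
        rw [ModularForm.SL_slash]
        exact eichler_slash_isBoundedAtImInfty f F hF hDF hinv γ (hbol γ) }
  have hFmf : Fmf = 0 := by
    apply ModularForm.sturm_bound_Gamma0 N Fmf
    intro n hn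
    have hidx : (((1 : ℤ) - m) * ((CongruenceSubgroup.Gamma0 N).index : ℤ)).toNat = 0 := by
      apply Int.toNat_eq_zero.mpr
      apply mul_nonpos_of_nonpos_of_nonneg
      · have : (1 : ℤ) ≤ m := by exact_mod_cast hm
        linarith
      · exact Int.natCast_nonneg _
    rw [hidx] at hn
    have hn0 : n = 0 := by omega
    subst hn0
    have hcoe : ⇑Fmf = F := rfl
    rw [hcoe, qExpansion_coeff]
    simp [hFz.cuspFunction_apply_zero one_pos]
  have hF0 : F = 0 := (congrArg DFunLike.coe hFmf).trans FunLike.coe_zero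
  have hf0 : (⇑f : ℍ → ℂ) = 0 := by
    rw [← hDF, hF0, Dn_zero_fun]
  exact DFunLike.coe_injective hf0

end Fermat.Agent.S22
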