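import Mathlib
import Fermat.Prelude.Def_CuspForm_HeckeAlgebra

set_option autoImplicit false

open scoped MatrixGroups ModularForm
open UpperHalfPlane

namespace Fermat.Agent.S22

/-- Interface between the analytic part (items 64, 65) and the algebraic part (item 63) of S22.
`F f` is the Eichler integral of `f` (any function with the listed properties will do). -/
structure EichlerData (N : ℕ) [NeZero N] (k : ℤ) where
  /-- the Eichler integral, linear in `f` -/
  F : CuspForm (CongruenceSubgroup.Gamma0 N) k →ₗ[ℂ] (ℍ → ℂ)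
  /-- period polynomials: `F|[2-k]γ - F` is a polynomial of degree `≤ k - 2` -/
  poly : ∀ (f : CuspForm (CongruenceSubgroup.Gamma0 N) k) (γ : SL(2, ℤ)),
    γ ∈ CongruenceSubgroup.Gamma0 N →
    ∃ P : Polynomial ℂ, P.natDegree ≤ (k - 2).toNat ∧
      ∀ z : ℍ, ((F f) ∣[2 - k] (Matrix.SpecialLinearGroup.mapGL ℝ γ)) z - F f z = P.eval (z : ℂ)
  /-- injectivity of the period map -/
  inj : ∀ f : CuspForm (CongruenceSubgroup.Gamma0 N) k,
    (∀ γ : SL(2, ℤ), γ ∈ CongruenceSubgroup.Gamma0 N →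
      (F f) ∣[2 - k] (Matrix.SpecialLinearGroup.mapGL ℝ γ) = F f) → f = 0
  /-- compatibility with `T_ℓ` -/
  heckeT : ∀ (ℓ : ℕ) (hℓ : ℓ.Prime) (hℓN : ¬ ℓ ∣ N)
    (f : CuspForm (CongruenceSubgroup.Gamma0 N) k),
    F (CuspForm.heckeTLin k hℓ hℓN f) = (ℓ : ℂ) ^ (k - 1) • ModularForm.heckeT (2 - k) ℓ (F f)
  /-- compatibility with `U_q` -/
  heckeU : ∀ (q : ℕ) (_hq : q.Prime) (hqN : q ∣ N)
    (f : CuspForm (CongruenceSubgroup.Gamma0 N) k),
    F (CuspForm.heckeULin k hqN f) = (q : ℂ) ^ (k - 1) • ModularForm.heckeU (2 - k) q (F f)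

end Fermat.Agent.S22
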