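import Mathlib
import Fermat.Prelude.Def_CuspForm_HeckeAlgebra
import Fermat.Prelude.Thm_CongruenceSubgroup_one_mem_strictPeriods_Gamma0
import Fermat.Agent.S22.EichlerInt
import Fermat.Agent.S22.Bol
import Fermat.Agent.S22.Injective
import Fermat.Agent.S22.HeckeCompat
import Fermat.Agent.S22.HeckeCompatBol
import Fermat.Agent.S22.Interface

/-!
# The Eichler integral of a cusp form and its period polynomials (item 64, part B2)

* `eichlerIntegral N k : CuspForm Γ₀(N) k →ₗ[ℂ] (ℍ → ℂ)`, characterised by: holomorphic,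
  zero at `i∞`, `Dn (k - 1).toNat (eichlerIntegral N k f) = f`.
* `eichlerIntegral_poly`, `eichlerIntegral_inj`, `eichlerIntegral_heckeT/U`.
* `eichlerData : EichlerData N k` for `2 ≤ k`.
-/

set_option autoImplicit false

namespace Fermat.Agent.S22

open UpperHalfPlane hiding I
open Real Complex Function Filter Topology Matrix.SpecialLinearGroup
open scoped Manifold MatrixGroups ModularForm
open Derivative

noncomputable section

variable {N : ℕ} [NeZero N] {k : ℤ}

theorem exists_eichlerFun (f : CuspForm (CongruenceSubgroup.Gamma0 N) k) :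
    ∃ G : ℍ → ℂ, MDiff G ∧ IsZeroAtImInfty G ∧ Dn (k - 1).toNat G = f := by
  obtain ⟨G, hG, -, hGz, hD⟩ := exists_eichler (h := 1) one_pos (k - 1).toNat
    (CuspFormClass.holo f)
    (fun τ => SlashInvariantForm.vAdd_apply_of_mem_strictPeriods f τ
      (CongruenceSubgroup.one_mem_strictPeriods_Gamma0 N))
    (CuspFormClass.zero_at_infty f)
  exact ⟨G, hG, hGz, hD⟩

/-- The Eichler integral of a cusp form, as a function. -/
def eichlerFun (f : CuspForm (CongruenceSubgroup.Gamma0 N) k) : ℍ → ℂ :=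
  Classical.choose (exists_eichlerFun f)

theorem mdiff_eichlerFun (f : CuspForm (CongruenceSubgroup.Gamma0 N) k) :
    MDiff (eichlerFun f) :=
  (Classical.choose_spec (exists_eichlerFun f)).1

theorem isZeroAtImInfty_eichlerFun (f : CuspForm (CongruenceSubgroup.Gamma0 N) k) :
    IsZeroAtImInfty (eichlerFun f) :=
  (Classical.choose_spec (exists_eichlerFun f)).2.1

theorem Dn_eichlerFun (f : CuspForm (CongruenceSubgroup.Gamma0 N) k) :
    Dn (k - 1).toNat (eichlerFun f) = f :=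
  (Classical.choose_spec (exists_eichlerFun f)).2.2

theorem eichlerFun_unique (f : CuspForm (CongruenceSubgroup.Gamma0 N) k) {G : ℍ → ℂ}
    (hG : MDiff G) (hGz : IsZeroAtImInfty G) (hD : Dn (k - 1).toNat G = f) :
    G = eichlerFun f :=
  eq_of_Dn_eq hG (mdiff_eichlerFun f) (by rw [hD, Dn_eichlerFun]) hGz
    (isZeroAtImInfty_eichlerFun f)

variable (N k) in
/-- The Eichler integral, as a linear map. -/
def eichlerIntegral : CuspForm (CongruenceSubgroup.Gamma0 N) k →ₗ[ℂ] (ℍ → ℂ) where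
  toFun := eichlerFun
  map_add' f g := by
    symm
    apply eichlerFun_unique (f + g) ((mdiff_eichlerFun f).add (mdiff_eichlerFun g))
      ((isZeroAtImInfty_eichlerFun f).add (isZeroAtImInfty_eichlerFun g))
    rw [Dn_add _ (mdiff_eichlerFun f) (mdiff_eichlerFun g), Dn_eichlerFun, Dn_eichlerFun]
    rfl
  map_smul' c f := by
    symm
    apply eichlerFun_unique (c • f) ((mdiff_eichlerFun f).const_smul c)
      (isZeroAtImInfty_const_smul c (isZeroAtImInfty_eichlerFun f))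
    rw [Dn_smul _ c (mdiff_eichlerFun f), Dn_eichlerFun]
    rfl

theorem eichlerIntegral_apply (f : CuspForm (CongruenceSubgroup.Gamma0 N) k) :
    eichlerIntegral N k f = eichlerFun f := rfl

theorem mdiff_eichlerIntegral (f : CuspForm (CongruenceSubgroup.Gamma0 N) k) :
    MDiff (eichlerIntegral N k f) := mdiff_eichlerFun f

theorem isZeroAtImInfty_eichlerIntegral (f : CuspForm (CongruenceSubgroup.Gamma0 N) k) :
    IsZeroAtImInfty (eichlerIntegral N k f) := isZeroAtImInfty_eichlerFun f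

theorem Dn_eichlerIntegral (f : CuspForm (CongruenceSubgroup.Gamma0 N) k) :
    Dn (k - 1).toNat (eichlerIntegral N k f) = f := Dn_eichlerFun f

theorem eichlerIntegral_unique (f : CuspForm (CongruenceSubgroup.Gamma0 N) k) {G : ℍ → ℂ}
    (hG : MDiff G) (hGz : IsZeroAtImInfty G) (hD : Dn (k - 1).toNat G = f) :
    G = eichlerIntegral N k f := eichlerFun_unique f hG hGz hD

/-- Bol's identity for `mapGL ℝ γ`. -/
theorem bol_mapGL (n : ℕ) {F : ℍ → ℂ} (hF : MDiff F) (γ : SL(2, ℤ)) :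
    Dn n (F ∣[(1 : ℤ) - n] (mapGL ℝ γ)) = (Dn n F) ∣[(1 : ℤ) + n] (mapGL ℝ γ) :=
  bol_SL n hF γ

/-- **Period polynomials.** -/
theorem eichlerIntegral_poly (hk : 2 ≤ k) (f : CuspForm (CongruenceSubgroup.Gamma0 N) k)
    (γ : SL(2, ℤ)) (hγ : γ ∈ CongruenceSubgroup.Gamma0 N) :
    ∃ P : Polynomial ℂ, P.natDegree ≤ (k - 2).toNat ∧
      ∀ z : ℍ, ((eichlerIntegral N k f) ∣[2 - k] (mapGL ℝ γ)) z - eichlerIntegral N k f z =
        P.eval (z : ℂ) := by
  obtain ⟨m, rfl⟩ : ∃ m : ℕ, k = (m : ℤ) + 1 :=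
    ⟨(k - 1).toNat, by rw [Int.toNat_of_nonneg (by linarith)]; ring⟩
  have hm : ((m : ℤ) + 1 - 1).toNat = m := by simp
  have hm2 : ((m : ℤ) + 1 - 2).toNat = m - 1 := by omega
  have hw : (2 : ℤ) - ((m : ℤ) + 1) = (1 : ℤ) - m := by ring
  set F := eichlerIntegral N ((m : ℤ) + 1) f with hFdef
  have hF : MDiff F := mdiff_eichlerIntegral f
  have hDF : Dn m F = f := by
    have := Dn_eichlerIntegral f
    rwa [hm] at this
  have hinv : (⇑f : ℍ → ℂ) ∣[(1 : ℤ) + m] (mapGL ℝ γ) = f := by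
    rw [add_comm]
    exact SlashInvariantFormClass.slash_action_eq f _ (Subgroup.mem_map_of_mem _ hγ)
  have hD0 : Dn m (F ∣[(1 : ℤ) - m] (mapGL ℝ γ) - F) = 0 := by
    rw [Dn_sub m (hF.slash _ _) hF, bol_mapGL m hF γ, hDF, hinv, sub_self]
  obtain ⟨P, hPdeg, hP⟩ := exists_polynomial_of_Dn_eq_zero ((hF.slash _ _).sub hF) hD0
  refine ⟨P, ?_, fun z => ?_⟩
  · rw [hm2]
    by_cases hP0 : P = 0
    · simp [hP0]
    · have h1 : P.natDegree < m := by
        rw [Polynomial.degree_eq_natDegree hP0] at hPdeg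
        exact_mod_cast hPdeg
      omega
  · rw [hw, ← hP z]
    rfl

/-- **Injectivity of the period map.** -/
theorem eichlerIntegral_inj (hk : 2 ≤ k) (f : CuspForm (CongruenceSubgroup.Gamma0 N) k)
    (hinv : ∀ γ : SL(2, ℤ), γ ∈ CongruenceSubgroup.Gamma0 N →
      (eichlerIntegral N k f) ∣[2 - k] (mapGL ℝ γ) = eichlerIntegral N k f) : f = 0 := by
  obtain ⟨m, rfl⟩ : ∃ m : ℕ, k = (m : ℤ) + 1 :=
    ⟨(k - 1).toNat, by rw [Int.toNat_of_nonneg (by linarith)]; ring⟩
  have hm : ((m : ℤ) + 1 - 1).toNat = m := by simp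
  have hm1 : 1 ≤ m := by omega
  have hw : (2 : ℤ) - ((m : ℤ) + 1) = (1 : ℤ) - m := by ring
  have hDF : Dn m (eichlerIntegral N ((m : ℤ) + 1) f) = f := by
    have := Dn_eichlerIntegral f
    rwa [hm] at this
  refine eichler_injective_core hm1 f (eichlerIntegral N ((m : ℤ) + 1) f)
    (mdiff_eichlerIntegral f) (isZeroAtImInfty_eichlerIntegral f) hDF
    (fun γ => bol_mapGL m (mdiff_eichlerIntegral f) γ) (fun γ hγ => ?_)
  rw [← hw]
  exact hinv γ hγ

/-- **Hecke compatibility `T_ℓ`.** -/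
theorem eichlerIntegral_heckeT (hk : 1 ≤ k) (ℓ : ℕ) (hℓ : ℓ.Prime) (hℓN : ¬ ℓ ∣ N)
    (f : CuspForm (CongruenceSubgroup.Gamma0 N) k) :
    eichlerIntegral N k (CuspForm.heckeTLin k hℓ hℓN f) =
      (ℓ : ℂ) ^ (k - 1) • ModularForm.heckeT (2 - k) ℓ (eichlerIntegral N k f) := by
  obtain ⟨m, rfl⟩ : ∃ m : ℕ, k = (m : ℤ) + 1 :=
    ⟨(k - 1).toNat, by rw [Int.toNat_of_nonneg (by linarith)]; ring⟩
  have hm : ((m : ℤ) + 1 - 1).toNat = m := by simp
  have hw : (2 : ℤ) - ((m : ℤ) + 1) = (1 : ℤ) - m := by ring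
  have hDF : Dn m (eichlerIntegral N ((m : ℤ) + 1) f) = f := by
    have := Dn_eichlerIntegral f
    rwa [hm] at this
  have hDG : Dn m (eichlerIntegral N ((m : ℤ) + 1) (CuspForm.heckeTLin ((m : ℤ) + 1) hℓ hℓN f)) =
      ModularForm.heckeT ((1 : ℤ) + m) ℓ f := by
    have := Dn_eichlerIntegral (CuspForm.heckeTLin ((m : ℤ) + 1) hℓ hℓN f)
    rw [hm] at this
    rw [this, add_comm (1 : ℤ)]
    rfl
  rw [eichler_heckeT bolStatement m hℓ.ne_zero (mdiff_eichlerIntegral f)
    (isZeroAtImInfty_eichlerIntegral f) hDF (mdiff_eichlerIntegral _)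
    (isZeroAtImInfty_eichlerIntegral _) hDG, hw]
  congr 1
  rw [show (m : ℤ) + 1 - 1 = (m : ℤ) by ring, zpow_natCast]

/-- **Hecke compatibility `U_q`.** -/
theorem eichlerIntegral_heckeU (hk : 1 ≤ k) (q : ℕ) (hq : q.Prime) (hqN : q ∣ N)
    (f : CuspForm (CongruenceSubgroup.Gamma0 N) k) :
    eichlerIntegral N k (CuspForm.heckeULin k hqN f) =
      (q : ℂ) ^ (k - 1) • ModularForm.heckeU (2 - k) q (eichlerIntegral N k f) := by
  obtain ⟨m, rfl⟩ : ∃ m : ℕ, k = (m : ℤ) + 1 :=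
    ⟨(k - 1).toNat, by rw [Int.toNat_of_nonneg (by linarith)]; ring⟩
  have hm : ((m : ℤ) + 1 - 1).toNat = m := by simp
  have hw : (2 : ℤ) - ((m : ℤ) + 1) = (1 : ℤ) - m := by ring
  have hDF : Dn m (eichlerIntegral N ((m : ℤ) + 1) f) = f := by
    have := Dn_eichlerIntegral f
    rwa [hm] at this
  have hDG : Dn m (eichlerIntegral N ((m : ℤ) + 1) (CuspForm.heckeULin ((m : ℤ) + 1) hqN f)) =
      ModularForm.heckeU ((1 : ℤ) + m) q f := by
    have := Dn_eichlerIntegral (CuspForm.heckeULin ((m : ℤ) + 1) hqN f)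
    rw [hm] at this
    rw [this, add_comm (1 : ℤ)]
    rfl
  rw [eichler_heckeU bolStatement m hq.ne_zero (mdiff_eichlerIntegral f)
    (isZeroAtImInfty_eichlerIntegral f) hDF (mdiff_eichlerIntegral _)
    (isZeroAtImInfty_eichlerIntegral _) hDG, hw]
  congr 1
  rw [show (m : ℤ) + 1 - 1 = (m : ℤ) by ring, zpow_natCast]

variable (N k) in
/-- The Eichler data of level `N` and weight `k ≥ 2`. -/
def eichlerData (hk : 2 ≤ k) : EichlerData N k where
  F := eichlerIntegral N k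
  poly := eichlerIntegral_poly hk
  inj := eichlerIntegral_inj hk
  heckeT := eichlerIntegral_heckeT (by linarith)
  heckeU := eichlerIntegral_heckeU (by linarith)

end

end Fermat.Agent.S22
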