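import Mathlib

set_option autoImplicit false
set_option linter.style.haveILetI false

namespace Fermat.Agent.S22

open Module

/-- Dual lattice criterion: if a finitely generated `ℤ`-submodule `Λ` of the dual of a complex
vector space `V` separates the points of `V` and is stable under precomposition with every
element of a set `𝒢` of endomorphisms, then the `ℤ`-algebra generated by `𝒢` is a finitely
generated `ℤ`-module. -/
theorem finite_adjoin_of_dual_lattice {V : Type*} [AddCommGroup V] [Module ℂ V]
    (𝒢 : Set (Module.End ℂ V)) (Λ : Submodule ℤ (Module.Dual ℂ V))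
    (hfg : Λ.FG) (hsep : ∀ v : V, (∀ l ∈ Λ, l v = 0) → v = 0)
    (hstab : ∀ T ∈ 𝒢, ∀ l ∈ Λ, l ∘ₗ T ∈ Λ) :
    Module.Finite ℤ (Algebra.adjoin ℤ 𝒢) := by
  classical
  -- every element of the adjoin preserves Λ
  have hpres : ∀ t ∈ Algebra.adjoin ℤ 𝒢, ∀ l ∈ Λ, l ∘ₗ t ∈ Λ := by
    intro t ht
    induction ht using Algebra.adjoin_induction with
    | mem x hx => exact hstab x hx
    | algebraMap r =>
      intro l hl
      have : l ∘ₗ (algebraMap ℤ (Module.End ℂ V) r) = r • l := by
        ext v
        simp
      rw [this]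
      exact Λ.smul_mem r hl
    | add x y hx hy ihx ihy =>
      intro l hl
      rw [LinearMap.comp_add]
      exact Λ.add_mem (ihx l hl) (ihy l hl)
    | mul x y hx hy ihx ihy =>
      intro l hl
      have : l ∘ₗ (x * y) = (l ∘ₗ x) ∘ₗ y := by
        ext v
        simp
      rw [this]
      exact ihy _ (ihx l hl)
  haveI hΛfin : Module.Finite ℤ Λ := Module.Finite.iff_fg.mpr hfg
  haveI hΛfree : Module.Free ℤ Λ := Module.free_of_finite_type_torsion_free'
  -- the embedding
  let Φ : (Algebra.adjoin ℤ 𝒢) →ₗ[ℤ] (Λ →ₗ[ℤ] Λ) :=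
    { toFun := fun t =>
        { toFun := fun l => ⟨(l : Module.Dual ℂ V) ∘ₗ (t : Module.End ℂ V), hpres t.1 t.2 l.1 l.2⟩
          map_add' := by
            intro l l'
            apply Subtype.ext
            simp [LinearMap.add_comp]
          map_smul' := by
            intro r l
            apply Subtype.ext
            simp [LinearMap.smul_comp] }
      map_add' := by
        intro s t
        ext l : 2
        simp [LinearMap.comp_add]
      map_smul' := by
        intro r t
        ext l : 2
        simp only [Subalgebra.coe_smul, RingHom.id_apply, LinearMap.coe_mk, AddHom.coe_mk,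
          LinearMap.smul_apply, Submodule.coe_smul]
        ext v
        simp }
  have hΦinj : Function.Injective Φ := by
    rw [← LinearMap.ker_eq_bot, LinearMap.ker_eq_bot']
    intro t ht
    apply Subtype.ext
    ext v
    apply hsep
    intro l hl
    have h1 := congrArg (fun F : Λ →ₗ[ℤ] Λ => ((F ⟨l, hl⟩ : Λ) : Module.Dual ℂ V) v) ht
    simpa [Φ] using h1
  exact Module.Finite.of_injective Φ hΦinj

/-- Concrete form with a family of functionals indexed by a finitely generated group and a
finite index set, satisfying cocycle-type membership relations. -/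
theorem finite_adjoin_of_period_functionals {V : Type*} [AddCommGroup V] [Module ℂ V]
    {Γ : Type*} [Group Γ] [hΓ : Group.FG Γ] {ι : Type*} [Finite ι]
    (𝒢 : Set (Module.End ℂ V)) (c : Γ → ι → Module.Dual ℂ V)
    (hone : ∀ j, c 1 j = 0)
    (hmul : ∀ g d j, c (g * d) j ∈
      Submodule.span ℤ (Set.range (c g) ∪ Set.range (c d)))
    (hinv : ∀ g j, c g⁻¹ j ∈ Submodule.span ℤ (Set.range (c g)))
    (hsep : ∀ v : V, (∀ g j, c g j v = 0) → v = 0)
    (hhecke : ∀ T ∈ 𝒢, ∀ g j, (c g j) ∘ₗ T ∈
      Submodule.span ℤ (Set.range fun x : Γ × ι => c x.1 x.2)) :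
    Module.Finite ℤ (Algebra.adjoin ℤ 𝒢) := by
  classical
  obtain ⟨G₀, hG₀⟩ := Group.fg_def.mp hΓ
  -- the lattice generated by the functionals at the generators
  set Λ₀ : Submodule ℤ (Module.Dual ℂ V) :=
    Submodule.span ℤ (⋃ g ∈ (G₀ : Set Γ), Set.range (c g)) with hΛ₀
  have hΛ₀fg : Λ₀.FG := by
    apply Submodule.fg_span
    apply Set.Finite.biUnion G₀.finite_toSet
    intro g _
    exact Set.finite_range _
  -- all functionals lie in Λ₀
  have hall : ∀ g : Γ, ∀ j, c g j ∈ Λ₀ := by
    intro g
    have hg : g ∈ Subgroup.closure (G₀ : Set Γ) := by rw [hG₀]; exact Subgroup.mem_top g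
    induction hg using Subgroup.closure_induction with
    | mem x hx =>
      intro j
      apply Submodule.subset_span
      exact Set.mem_biUnion hx ⟨j, rfl⟩
    | one =>
      intro j
      rw [hone j]
      exact Λ₀.zero_mem
    | mul x y hx hy ihx ihy =>
      intro j
      have h := hmul x y j
      refine (Submodule.span_le.mpr ?_) h
      rintro l (⟨i, rfl⟩ | ⟨i, rfl⟩)
      · exact ihx i
      · exact ihy i
    | inv x hx ihx =>
      intro j
      have h := hinv x j
      refine (Submodule.span_le.mpr ?_) h
      rintro l ⟨i, rfl⟩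
      exact ihx i
  have hspan_le : Submodule.span ℤ (Set.range fun x : Γ × ι => c x.1 x.2) ≤ Λ₀ := by
    rw [Submodule.span_le]
    rintro l ⟨⟨g, j⟩, rfl⟩
    exact hall g j
  apply finite_adjoin_of_dual_lattice 𝒢 Λ₀ hΛ₀fg
  · intro v hv
    apply hsep
    intro g j
    exact hv _ (hall g j)
  · intro T hT l hl
    -- l is an integer combination of the c g j
    induction hl using Submodule.span_induction with
    | mem x hx =>
      obtain ⟨g, hg, hx'⟩ := Set.mem_iUnion₂.mp hx
      obtain ⟨j, rfl⟩ := hx'
      exact hspan_le (hhecke T hT g j)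
    | zero =>
      rw [LinearMap.zero_comp]
      exact Λ₀.zero_mem
    | add x y hx hy ihx ihy =>
      rw [LinearMap.add_comp]
      exact Λ₀.add_mem ihx ihy
    | smul r x hx ihx =>
      rw [LinearMap.smul_comp]
      exact Λ₀.smul_mem r ihx

end Fermat.Agent.S22
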