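import Mathlib
import Fermat.Prelude.Def_CuspForm_HeckeAlgebra
import Fermat.Prelude.Thm_ModularForm_sturm_bound_Gamma0
import Fermat.Prelude.Thm_CongruenceSubgroup_one_mem_strictPeriods_Gamma0
import Fermat.Agent.S22.DualLattice

set_option autoImplicit false
set_option linter.style.haveILetI false

open CongruenceSubgroup UpperHalfPlane
open scoped MatrixGroups

namespace Fermat.Agent.S22

/-- `Γ₀(N)` is finitely generated. -/
theorem gamma0_fg (N : ℕ) [NeZero N] : Group.FG ↥(Gamma0 N) := by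
  haveI : Group.FG SL(2, ℤ) := by
    rw [Group.fg_def]
    refine ⟨{ModularGroup.S, ModularGroup.T}, ?_⟩
    have := SpecialLinearGroup.SL2Z_generators
    simpa using this
  exact Subgroup.fg_of_index_ne_zero (Gamma0 N)

/-- Cusp forms of weight `≤ 0` on `Γ₀(N)` vanish (prelude Sturm bound). -/
theorem cuspForm_eq_zero_of_weight_nonpos (N : ℕ) [NeZero N] {k : ℤ} (hk : k ≤ 0)
    (f : CuspForm (Gamma0 N) k) : f = 0 := by
  have hmf : (f : ModularForm (Gamma0 N) k) = 0 := by
    apply ModularForm.sturm_bound_Gamma0 N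
    intro n hn
    have hn0 : n = 0 := by
      have h1 : k * ((Gamma0 N).index : ℤ) ≤ 0 :=
        mul_nonpos_of_nonpos_of_nonneg hk (Int.natCast_nonneg _)
      have h2 : (k * ((Gamma0 N).index : ℤ)).toNat = 0 := Int.toNat_eq_zero.mpr h1
      rw [h2] at hn
      simpa using hn
    subst hn0
    exact CuspFormClass.qExpansion_coeff_zero (k := k) f one_pos
      (CongruenceSubgroup.one_mem_strictPeriods_Gamma0 N)
  ext z
  have := congrArg (fun g : ModularForm (Gamma0 N) k => g z) hmf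
  simpa using this

/-- Cusp forms of odd weight on `Γ₀(N)` vanish, since `-1 ∈ Γ₀(N)`. -/
theorem cuspForm_eq_zero_of_odd (N : ℕ) {k : ℤ} (hk : Odd k)
    (f : CuspForm (Gamma0 N) k) : f = 0 := by
  have hneg : (-1 : GL (Fin 2) ℝ) ∈
      Subgroup.map (Matrix.SpecialLinearGroup.mapGL ℝ) (Gamma0 N) := by
    refine ⟨-1, ?_, ?_⟩
    · rw [SetLike.mem_coe, Gamma0_mem]
      simp
    · ext i j
      simp
  ext z
  have hf := SlashInvariantForm.slash_action_eqn'' f hneg z
  rw [neg_smul, one_smul, denom_neg, denom_one, hk.neg_one_zpow] at hf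
  have h2 : (2 : ℂ) * f z = 0 := by linear_combination hf
  simpa using (mul_eq_zero.mp h2).resolve_left (by norm_num)

/-- If all cusp forms vanish, the Hecke algebra is a finite `ℤ`-module. -/
theorem heckeAlgebra_finite_of_forall_eq_zero (N : ℕ) [NeZero N] (k : ℤ) (S : Set ℕ)
    (h : ∀ f : CuspForm (Gamma0 N) k, f = 0) :
    Module.Finite ℤ (CuspForm.heckeAlgebra N k S) := by
  haveI : Subsingleton (CuspForm (Gamma0 N) k) := ⟨fun a b => by rw [h a, h b]⟩
  haveI : Subsingleton (Module.End ℂ (CuspForm (Gamma0 N) k)) :=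
    ⟨fun a b => LinearMap.ext fun x => Subsingleton.elim _ _⟩
  haveI : Subsingleton (CuspForm.heckeAlgebra N k S) :=
    ⟨fun a b => Subtype.ext (Subsingleton.elim _ _)⟩
  infer_instance

/-- The data the analytic part (period polynomials of Eichler integrals) must supply. -/
structure PeriodFunctionals (N : ℕ) [NeZero N] (k : ℤ) (ι : Type) where
  /-- `c γ j f` is the `j`-th coefficient of the period polynomial `r_f(γ)`. -/
  c : ↥(Gamma0 N) → ι → Module.Dual ℂ (CuspForm (Gamma0 N) k)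
  one : ∀ j, c 1 j = 0
  mul : ∀ g d j, c (g * d) j ∈ Submodule.span ℤ (Set.range (c g) ∪ Set.range (c d))
  inv : ∀ g j, c g⁻¹ j ∈ Submodule.span ℤ (Set.range (c g))
  sep : ∀ f : CuspForm (Gamma0 N) k, (∀ g j, c g j f = 0) → f = 0
  heckeT : ∀ (p : ℕ) (hp : p.Prime) (hpN : ¬ p ∣ N) (g : ↥(Gamma0 N)) (j : ι),
    (c g j) ∘ₗ (CuspForm.heckeTLin k hp hpN) ∈
      Submodule.span ℤ (Set.range fun x : ↥(Gamma0 N) × ι => c x.1 x.2)
  heckeU : ∀ (p : ℕ) (_hp : p.Prime) (hpN : p ∣ N) (g : ↥(Gamma0 N)) (j : ι),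
    (c g j) ∘ₗ (CuspForm.heckeULin k hpN) ∈
      Submodule.span ℤ (Set.range fun x : ↥(Gamma0 N) × ι => c x.1 x.2)

/-- Assembly: period functionals give finiteness of the Hecke algebra. -/
theorem heckeAlgebra_finite_of_periodFunctionals (N : ℕ) [NeZero N] (k : ℤ) (S : Set ℕ)
    {ι : Type} [Finite ι] (P : PeriodFunctionals N k ι) :
    Module.Finite ℤ (CuspForm.heckeAlgebra N k S) := by
  haveI := gamma0_fg N
  unfold CuspForm.heckeAlgebra
  apply finite_adjoin_of_period_functionals (CuspForm.heckeGenerators N k S) P.c P.one P.mul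
    P.inv P.sep
  rintro T (⟨ℓ, hℓ, hℓN, -, rfl⟩ | ⟨q, hqN, hq, -, rfl⟩) g j
  · exact P.heckeT ℓ hℓ hℓN g j
  · exact P.heckeU q hq hqN g j

/-- Final assembly of S22 from the main case (even weight `≥ 2`). -/
theorem heckeAlgebra_finite_of_main_case
    (hmain : ∀ (N : ℕ) [NeZero N] (k : ℤ), 2 ≤ k → Even k →
      ∃ (ι : Type) (_ : Finite ι), Nonempty (PeriodFunctionals N k ι))
    (N : ℕ) [NeZero N] (k : ℤ) (S : Set ℕ) :
    Module.Finite ℤ (CuspForm.heckeAlgebra N k S) := by
  rcases Int.even_or_odd k with hk | hk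
  · rcases le_or_gt k 0 with h0 | h0
    · exact heckeAlgebra_finite_of_forall_eq_zero N k S
        (cuspForm_eq_zero_of_weight_nonpos N h0)
    · have h2 : 2 ≤ k := by
        obtain ⟨m, hm⟩ := hk
        omega
      obtain ⟨ι, hι, ⟨P⟩⟩ := hmain N k h2 hk
      exact heckeAlgebra_finite_of_periodFunctionals N k S P
  · exact heckeAlgebra_finite_of_forall_eq_zero N k S (cuspForm_eq_zero_of_odd N hk)

end Fermat.Agent.S22
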