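import Mathlib

/-!
# S22: the weight-`w` action of integer matrices on polynomials of degree `≤ w`

For `a b c d : ℤ` and `P : ℂ[X]` we put
`polyAct w a b c d P = ∑_{j ≤ w} coeff_j(P) (aX+b)^j (cX+d)^(w-j)`.
If `natDegree P ≤ w` this is `(cX+d)^w P((aX+b)/(cX+d))`.  Its coefficients are integral linear
combinations of the coefficients of `P`, with an explicit integer matrix `polyActMatrix`.
-/

set_option autoImplicit false

open Polynomial

namespace Fermat.Agent.S22

/-- The integral polynomial `(aX+b)^j (cX+d)^(w-j)`. -/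
noncomputable def polyActBasis (w : ℕ) (a b c d : ℤ) (j : ℕ) : ℤ[X] :=
  (C a * X + C b) ^ j * (C c * X + C d) ^ (w - j)

/-- The weight-`w` action of the integer matrix `!![a, b; c, d]` on polynomials. -/
noncomputable def polyAct (w : ℕ) (a b c d : ℤ) (P : ℂ[X]) : ℂ[X] :=
  ∑ j ∈ Finset.range (w + 1), P.coeff j • (polyActBasis w a b c d j).map (Int.castRingHom ℂ)

/-- The integer matrix of `polyAct` on coefficient vectors. -/
noncomputable def polyActMatrix (w : ℕ) (a b c d : ℤ) : Matrix (Fin (w + 1)) (Fin (w + 1)) ℤ :=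
  fun i j => (polyActBasis w a b c d j).coeff i

theorem polyActBasis_natDegree_le (w : ℕ) (a b c d : ℤ) {j : ℕ} (hj : j ≤ w) :
    (polyActBasis w a b c d j).natDegree ≤ w := by
  unfold polyActBasis
  have h1 : (C a * X + C b : ℤ[X]).natDegree ≤ 1 := natDegree_linear_le
  have h2 : (C c * X + C d : ℤ[X]).natDegree ≤ 1 := natDegree_linear_le
  calc ((C a * X + C b) ^ j * (C c * X + C d) ^ (w - j) : ℤ[X]).natDegree
      ≤ ((C a * X + C b) ^ j : ℤ[X]).natDegree + ((C c * X + C d) ^ (w - j) : ℤ[X]).natDegree :=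
        natDegree_mul_le
    _ ≤ j * 1 + (w - j) * 1 := by
        gcongr
        · exact (natDegree_pow_le).trans (Nat.mul_le_mul_left _ h1)
        · exact (natDegree_pow_le).trans (Nat.mul_le_mul_left _ h2)
    _ = w := by omega

theorem polyAct_natDegree_le (w : ℕ) (a b c d : ℤ) (P : ℂ[X]) :
    (polyAct w a b c d P).natDegree ≤ w := by
  unfold polyAct
  refine natDegree_sum_le_of_forall_le _ _ fun j hj => ?_
  have hj' : j ≤ w := Nat.lt_succ_iff.mp (Finset.mem_range.mp hj)
  exact (natDegree_smul_le _ _).trans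
    (natDegree_map_le.trans (polyActBasis_natDegree_le w a b c d hj'))

theorem polyAct_coeff (w : ℕ) (a b c d : ℤ) (P : ℂ[X]) (i : ℕ) :
    (polyAct w a b c d P).coeff i =
      ∑ j ∈ Finset.range (w + 1), ((polyActBasis w a b c d j).coeff i : ℂ) * P.coeff j := by
  unfold polyAct
  rw [finsetSum_coeff]
  refine Finset.sum_congr rfl fun j _ => ?_
  rw [coeff_smul, coeff_map, smul_eq_mul, mul_comm]
  rfl

/-- The coefficients of `polyAct P` are given by the integer matrix `polyActMatrix`. -/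
theorem polyAct_coeff_fin (w : ℕ) (a b c d : ℤ) (P : ℂ[X]) (i : Fin (w + 1)) :
    (polyAct w a b c d P).coeff i =
      ∑ j : Fin (w + 1), ((polyActMatrix w a b c d i j : ℤ) : ℂ) * P.coeff j := by
  rw [polyAct_coeff, Finset.sum_range]
  rfl

theorem polyAct_coeff_mem_span (w : ℕ) (a b c d : ℤ) (P : ℂ[X]) (i : ℕ) :
    (polyAct w a b c d P).coeff i ∈ Submodule.span ℤ (Set.range P.coeff) := by
  rw [polyAct_coeff]
  refine Submodule.sum_mem _ fun j _ => ?_
  have : ((polyActBasis w a b c d j).coeff i : ℂ) * P.coeff j =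
      (polyActBasis w a b c d j).coeff i • P.coeff j := by
    rw [zsmul_eq_mul]
  rw [this]
  exact Submodule.smul_mem _ _ (Submodule.subset_span ⟨j, rfl⟩)

/-- Evaluation of the basis polynomial `(aX+b)^j (cX+d)^(w-j)`. -/
theorem polyActBasis_eval (w : ℕ) (a b c d : ℤ) (j : ℕ) (z : ℂ) :
    ((polyActBasis w a b c d j).map (Int.castRingHom ℂ)).eval z =
      ((a : ℂ) * z + b) ^ j * ((c : ℂ) * z + d) ^ (w - j) := by
  simp [polyActBasis]

/-- Evaluation of `polyAct`: it is `(cz+d)^w P((az+b)/(cz+d))`. -/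
theorem polyAct_eval (w : ℕ) (a b c d : ℤ) (P : ℂ[X]) (hP : P.natDegree ≤ w) (z : ℂ)
    (hz : (c : ℂ) * z + d ≠ 0) :
    (polyAct w a b c d P).eval z =
      ((c : ℂ) * z + d) ^ w * P.eval (((a : ℂ) * z + b) / ((c : ℂ) * z + d)) := by
  unfold polyAct
  rw [eval_finsetSum, eval_eq_sum_range' (Nat.lt_succ_of_le hP), Finset.mul_sum]
  refine Finset.sum_congr rfl fun j hj => ?_
  have hj' : j ≤ w := Nat.lt_succ_iff.mp (Finset.mem_range.mp hj)
  rw [eval_smul, polyActBasis_eval, smul_eq_mul, div_pow]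
  have hw : ((c : ℂ) * z + d) ^ w = ((c : ℂ) * z + d) ^ j * ((c : ℂ) * z + d) ^ (w - j) := by
    rw [← pow_add, Nat.add_sub_cancel' hj']
  rw [hw]
  have hzj : ((c : ℂ) * z + d) ^ j ≠ 0 := pow_ne_zero _ hz
  generalize ((c : ℂ) * z + d) ^ j = u at hzj ⊢
  generalize ((a : ℂ) * z + b) ^ j = v
  generalize ((c : ℂ) * z + d) ^ (w - j) = t
  field_simp

/-- `polyAct` is additive in `P`. -/
theorem polyAct_add (w : ℕ) (a b c d : ℤ) (P Q : ℂ[X]) :
    polyAct w a b c d (P + Q) = polyAct w a b c d P + polyAct w a b c d Q := by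
  unfold polyAct
  rw [← Finset.sum_add_distrib]
  refine Finset.sum_congr rfl fun j _ => ?_
  rw [coeff_add, add_smul]

/-- `polyAct` is homogeneous in `P`. -/
theorem polyAct_smul (w : ℕ) (a b c d : ℤ) (t : ℂ) (P : ℂ[X]) :
    polyAct w a b c d (t • P) = t • polyAct w a b c d P := by
  unfold polyAct
  rw [Finset.smul_sum]
  refine Finset.sum_congr rfl fun j _ => ?_
  rw [coeff_smul, smul_eq_mul, mul_smul]

end Fermat.Agent.S22
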