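import Mathlib
import Fermat.Prelude.Def_CuspForm_HeckeAlgebra
import Fermat.Agent.S22.Interface
import Fermat.Agent.S22.Assembly
import Fermat.Agent.S22.PolyAct
import Fermat.Prelude.Sol.S_ModularForm_heckeT_slash_eq_self_of_mem_Gamma0

set_option autoImplicit false
set_option linter.style.haveILetI false

open scoped MatrixGroups ModularForm
open UpperHalfPlane CongruenceSubgroup

namespace Fermat.Agent.S22

/-- Two polynomials agreeing on the upper half plane are equal. -/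
theorem poly_eq_of_eval_eq_on_upperHalfPlane {P Q : Polynomial ℂ}
    (h : ∀ z : ℍ, P.eval (z : ℂ) = Q.eval (z : ℂ)) : P = Q := by
  apply Polynomial.eq_of_infinite_eval_eq
  have hinj : Function.Injective (fun n : ℕ => (n : ℂ) + Complex.I) := by
    intro a b hab
    have := congrArg Complex.re hab
    simpa using this
  refine Set.infinite_of_injective_forall_mem hinj (fun n => ?_)
  have him : 0 < ((n : ℂ) + Complex.I).im := by simp
  exact h ⟨_, him⟩

/-- The function on `ℍ` attached to a polynomial. -/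
noncomputable def polyFun (P : Polynomial ℂ) : ℍ → ℂ := fun z => P.eval (z : ℂ)

@[simp] theorem polyFun_apply (P : Polynomial ℂ) (z : ℍ) : polyFun P z = P.eval (z : ℂ) := rfl

theorem polyFun_injective : Function.Injective polyFun := fun _ _ h =>
  poly_eq_of_eval_eq_on_upperHalfPlane fun z => congrFun h z

theorem polyFun_add (P Q : Polynomial ℂ) : polyFun (P + Q) = polyFun P + polyFun Q := by
  ext z; simp

theorem polyFun_smul (c : ℂ) (P : Polynomial ℂ) : polyFun (c • P) = c • polyFun P := by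
  ext z; simp

theorem polyFun_zero : polyFun 0 = 0 := by
  ext z; simp

theorem polyFun_sum {ι : Type*} (s : Finset ι) (P : ι → Polynomial ℂ) :
    polyFun (∑ i ∈ s, P i) = ∑ i ∈ s, polyFun (P i) := by
  ext z; simp [Polynomial.eval_finsetSum]

variable {N : ℕ} [NeZero N] {k : ℤ}

/-- The period polynomial `r_f(γ) = F_f ∣[2-k] γ - F_f`. -/
noncomputable def periodPolyFun (D : EichlerData N k) (γ : ↥(Gamma0 N))
    (f : CuspForm (Gamma0 N) k) : Polynomial ℂ :=
  Classical.choose (D.poly f γ.1 γ.2)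

theorem periodPolyFun_natDegree_le (D : EichlerData N k) (γ : ↥(Gamma0 N))
    (f : CuspForm (Gamma0 N) k) : (periodPolyFun D γ f).natDegree ≤ (k - 2).toNat :=
  (Classical.choose_spec (D.poly f γ.1 γ.2)).1

theorem polyFun_periodPolyFun (D : EichlerData N k) (γ : ↥(Gamma0 N))
    (f : CuspForm (Gamma0 N) k) :
    polyFun (periodPolyFun D γ f) =
      (D.F f) ∣[2 - k] (Matrix.SpecialLinearGroup.mapGL ℝ γ.1) - D.F f := by
  ext z
  exact ((Classical.choose_spec (D.poly f γ.1 γ.2)).2 z).symm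

theorem periodPolyFun_unique (D : EichlerData N k) (γ : ↥(Gamma0 N))
    (f : CuspForm (Gamma0 N) k) (P : Polynomial ℂ)
    (h : polyFun P = (D.F f) ∣[2 - k] (Matrix.SpecialLinearGroup.mapGL ℝ γ.1) - D.F f) :
    periodPolyFun D γ f = P :=
  polyFun_injective ((polyFun_periodPolyFun D γ f).trans h.symm)

theorem mapGL_smul_slash (k' : ℤ) (γ : SL(2, ℤ)) (c : ℂ) (F : ℍ → ℂ) :
    (c • F) ∣[k'] (Matrix.SpecialLinearGroup.mapGL ℝ γ) =
      c • (F ∣[k'] (Matrix.SpecialLinearGroup.mapGL ℝ γ)) :=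
  ModularForm.SL_smul_slash k' γ F c

/-- The period polynomial as a linear map in `f`. -/
noncomputable def periodPoly (D : EichlerData N k) (γ : ↥(Gamma0 N)) :
    CuspForm (Gamma0 N) k →ₗ[ℂ] Polynomial ℂ where
  toFun := periodPolyFun D γ
  map_add' f g := by
    apply polyFun_injective
    rw [polyFun_add, polyFun_periodPolyFun, polyFun_periodPolyFun, polyFun_periodPolyFun,
      map_add, SlashAction.add_slash]
    abel
  map_smul' c f := by
    apply polyFun_injective
    rw [RingHom.id_apply, polyFun_smul, polyFun_periodPolyFun, polyFun_periodPolyFun,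
      map_smul, mapGL_smul_slash, smul_sub]

theorem periodPoly_natDegree_le (D : EichlerData N k) (γ : ↥(Gamma0 N))
    (f : CuspForm (Gamma0 N) k) : (periodPoly D γ f).natDegree ≤ (k - 2).toNat :=
  periodPolyFun_natDegree_le D γ f

theorem polyFun_periodPoly (D : EichlerData N k) (γ : ↥(Gamma0 N))
    (f : CuspForm (Gamma0 N) k) :
    polyFun (periodPoly D γ f) =
      (D.F f) ∣[2 - k] (Matrix.SpecialLinearGroup.mapGL ℝ γ.1) - D.F f :=
  polyFun_periodPolyFun D γ f

theorem periodPoly_unique (D : EichlerData N k) (γ : ↥(Gamma0 N))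
    (f : CuspForm (Gamma0 N) k) (P : Polynomial ℂ)
    (h : polyFun P = (D.F f) ∣[2 - k] (Matrix.SpecialLinearGroup.mapGL ℝ γ.1) - D.F f) :
    periodPoly D γ f = P :=
  periodPolyFun_unique D γ f P h

theorem periodPoly_one (D : EichlerData N k) (f : CuspForm (Gamma0 N) k) :
    periodPoly D 1 f = 0 := by
  apply periodPoly_unique
  rw [polyFun_zero]
  simp


/-- Slash action (weight `-w`) of a matrix with integer entries and positive determinant on a
polynomial function of degree `≤ w`. -/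
theorem slash_polyFun (w : ℕ) (α : GL (Fin 2) ℝ) (hdet : 0 < α.det.val) (a b c d : ℤ)
    (h00 : α 0 0 = a) (h01 : α 0 1 = b) (h10 : α 1 0 = c) (h11 : α 1 1 = d)
    (P : Polynomial ℂ) (hP : P.natDegree ≤ w) :
    polyFun P ∣[-(w : ℤ)] α =
      (((α.det.val : ℝ) : ℂ) ^ (w + 1))⁻¹ • polyFun (polyAct w a b c d P) := by
  ext z
  have hden : denom α z = (c : ℂ) * z + d := by
    simp [denom, h10, h11]
  have hnum : num α z = (a : ℂ) * z + b := by
    simp [num, h00, h01]
  have hden0 : (c : ℂ) * z + d ≠ 0 := hden ▸ denom_ne_zero α z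
  have hσ : σ α = .refl ℝ ℂ := by rw [σ, if_pos hdet]
  have hdetC : ((α.det.val : ℝ) : ℂ) ≠ 0 := by
    exact_mod_cast hdet.ne'
  rw [ModularForm.slash_apply, hσ, Pi.smul_apply, polyFun_apply, polyFun_apply,
    polyAct_eval w a b c d P hP z hden0, coe_smul_of_det_pos hdet, hnum, hden,
    abs_of_pos hdet]
  simp only [ContinuousAlgEquiv.refl_apply, smul_eq_mul, neg_neg, zpow_natCast]
  rw [show -(w : ℤ) - 1 = -((w + 1 : ℕ) : ℤ) by push_cast; ring, zpow_neg, zpow_natCast]
  ring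


theorem mapGL_apply_int (γ : SL(2, ℤ)) (i j : Fin 2) :
    (Matrix.SpecialLinearGroup.mapGL ℝ γ) i j = ((γ i j : ℤ) : ℝ) := by
  simp [Matrix.SpecialLinearGroup.mapGL_coe_matrix]

theorem det_mapGL_pos (γ : SL(2, ℤ)) :
    0 < (Matrix.SpecialLinearGroup.mapGL ℝ γ).det.val := by
  simp [Matrix.SpecialLinearGroup.det_mapGL]

/-- The integral action of `γ ∈ SL(2, ℤ)` on polynomials of degree `≤ w`. -/
noncomputable def polyActSL (w : ℕ) (γ : SL(2, ℤ)) (P : Polynomial ℂ) : Polynomial ℂ :=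
  polyAct w (γ 0 0) (γ 0 1) (γ 1 0) (γ 1 1) P

theorem slash_polyFun_SL (w : ℕ) (γ : SL(2, ℤ)) (P : Polynomial ℂ) (hP : P.natDegree ≤ w) :
    polyFun P ∣[-(w : ℤ)] (Matrix.SpecialLinearGroup.mapGL ℝ γ) = polyFun (polyActSL w γ P) := by
  rw [slash_polyFun w _ (det_mapGL_pos γ) (γ 0 0) (γ 0 1) (γ 1 0) (γ 1 1)
    (mapGL_apply_int γ 0 0) (mapGL_apply_int γ 0 1) (mapGL_apply_int γ 1 0)
    (mapGL_apply_int γ 1 1) P hP]
  simp [Matrix.SpecialLinearGroup.det_mapGL, polyActSL]

theorem two_sub_eq_neg_toNat {k : ℤ} (hk : 2 ≤ k) : 2 - k = -(((k - 2).toNat : ℕ) : ℤ) := by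
  rw [Int.toNat_of_nonneg (by omega)]
  ring

theorem slash_sub (k' : ℤ) (A : GL (Fin 2) ℝ) (F G : ℍ → ℂ) :
    (F - G) ∣[k'] A = F ∣[k'] A - G ∣[k'] A := by
  rw [sub_eq_add_neg, SlashAction.add_slash, SlashAction.neg_slash, ← sub_eq_add_neg]

/-- The cocycle relation for period polynomials. -/
theorem periodPoly_mul (hk : 2 ≤ k) (D : EichlerData N k) (γ δ : ↥(Gamma0 N))
    (f : CuspForm (Gamma0 N) k) :
    periodPoly D (γ * δ) f =
      polyActSL (k - 2).toNat δ.1 (periodPoly D γ f) + periodPoly D δ f := by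
  apply periodPoly_unique
  have h1 := slash_polyFun_SL (k - 2).toNat δ.1 (periodPoly D γ f)
    (periodPoly_natDegree_le D γ f)
  rw [← two_sub_eq_neg_toNat hk] at h1
  rw [polyFun_add, ← h1, polyFun_periodPoly, polyFun_periodPoly, Subgroup.coe_mul, map_mul,
    SlashAction.slash_mul, slash_sub]
  abel


theorem periodPoly_inv (hk : 2 ≤ k) (D : EichlerData N k) (γ : ↥(Gamma0 N))
    (f : CuspForm (Gamma0 N) k) :
    periodPoly D γ⁻¹ f = -polyActSL (k - 2).toNat (γ⁻¹ : ↥(Gamma0 N)).1 (periodPoly D γ f) := by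
  have h := periodPoly_mul hk D γ γ⁻¹ f
  rw [mul_inv_cancel, periodPoly_one] at h
  exact eq_neg_of_add_eq_zero_right h.symm

/-- The coefficient functionals of the period polynomials. -/
noncomputable def periodCoeff (D : EichlerData N k) (γ : ↥(Gamma0 N))
    (j : Fin ((k - 2).toNat + 1)) : Module.Dual ℂ (CuspForm (Gamma0 N) k) :=
  (Polynomial.lcoeff ℂ (j : ℕ)) ∘ₗ periodPoly D γ

theorem periodCoeff_apply (D : EichlerData N k) (γ : ↥(Gamma0 N))
    (j : Fin ((k - 2).toNat + 1)) (f : CuspForm (Gamma0 N) k) :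
    periodCoeff D γ j f = (periodPoly D γ f).coeff j := rfl

/-- A functional computing a coefficient of `polyAct` applied to a period polynomial lies in the
integral span of the coefficient functionals. -/
theorem mem_span_of_eq_coeff_polyAct (D : EichlerData N k) (γ : ↥(Gamma0 N)) (a b c d : ℤ)
    (j : Fin ((k - 2).toNat + 1)) (φ : Module.Dual ℂ (CuspForm (Gamma0 N) k))
    (hφ : ∀ f, φ f = (polyAct (k - 2).toNat a b c d (periodPoly D γ f)).coeff j) :
    φ ∈ Submodule.span ℤ (Set.range (periodCoeff D γ)) := by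
  have h : φ = ∑ i : Fin ((k - 2).toNat + 1),
      (polyActMatrix (k - 2).toNat a b c d j i) • periodCoeff D γ i := by
    ext f
    rw [hφ, polyAct_coeff_fin, LinearMap.sum_apply]
    refine Finset.sum_congr rfl fun i _ => ?_
    rw [LinearMap.smul_apply, periodCoeff_apply, zsmul_eq_mul]
  rw [h]
  exact Submodule.sum_mem _ fun i _ =>
    Submodule.smul_mem _ _ (Submodule.subset_span ⟨i, rfl⟩)

theorem periodCoeff_one (D : EichlerData N k) (j : Fin ((k - 2).toNat + 1)) :
    periodCoeff D 1 j = 0 := by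
  ext f
  rw [periodCoeff_apply, periodPoly_one]
  simp

theorem periodCoeff_mul (hk : 2 ≤ k) (D : EichlerData N k) (γ δ : ↥(Gamma0 N))
    (j : Fin ((k - 2).toNat + 1)) :
    periodCoeff D (γ * δ) j ∈
      Submodule.span ℤ (Set.range (periodCoeff D γ) ∪ Set.range (periodCoeff D δ)) := by
  have h : periodCoeff D (γ * δ) j =
      (periodCoeff D (γ * δ) j - periodCoeff D δ j) + periodCoeff D δ j := by abel
  rw [h]
  refine Submodule.add_mem _ ?_ (Submodule.subset_span (Or.inr ⟨j, rfl⟩))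
  refine Submodule.span_mono Set.subset_union_left
    (mem_span_of_eq_coeff_polyAct D γ (δ.1 0 0) (δ.1 0 1) (δ.1 1 0) (δ.1 1 1) j _ fun f => ?_)
  rw [LinearMap.sub_apply, periodCoeff_apply, periodCoeff_apply, periodPoly_mul hk,
    Polynomial.coeff_add, add_sub_cancel_right]
  rfl

theorem periodCoeff_inv (hk : 2 ≤ k) (D : EichlerData N k) (γ : ↥(Gamma0 N))
    (j : Fin ((k - 2).toNat + 1)) :
    periodCoeff D γ⁻¹ j ∈ Submodule.span ℤ (Set.range (periodCoeff D γ)) := by
  have h : periodCoeff D γ⁻¹ j = -(-periodCoeff D γ⁻¹ j) := by abel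
  rw [h]
  refine Submodule.neg_mem _
    (mem_span_of_eq_coeff_polyAct D γ ((γ⁻¹ : ↥(Gamma0 N)).1 0 0) ((γ⁻¹ : ↥(Gamma0 N)).1 0 1)
      ((γ⁻¹ : ↥(Gamma0 N)).1 1 0) ((γ⁻¹ : ↥(Gamma0 N)).1 1 1) j _ fun f => ?_)
  rw [LinearMap.neg_apply, periodCoeff_apply, periodPoly_inv hk, Polynomial.coeff_neg, neg_neg]
  rfl

theorem periodCoeff_sep (D : EichlerData N k) (f : CuspForm (Gamma0 N) k)
    (h : ∀ γ j, periodCoeff D γ j f = 0) : f = 0 := by
  apply D.inj f
  intro γ hγ
  have hP : periodPoly D ⟨γ, hγ⟩ f = 0 := by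
    ext i
    rw [Polynomial.coeff_zero]
    by_cases hi : i < (k - 2).toNat + 1
    · exact h ⟨γ, hγ⟩ ⟨i, hi⟩
    · exact Polynomial.coeff_eq_zero_of_natDegree_lt
        (lt_of_le_of_lt (periodPoly_natDegree_le D ⟨γ, hγ⟩ f) (by omega))
  have h2 := polyFun_periodPoly D ⟨γ, hγ⟩ f
  rw [hP, polyFun_zero] at h2
  exact (sub_eq_zero.mp h2.symm)


/-- General Hecke compatibility of period polynomials: if `F_{f'} = n^(k-1) Σ_x F_f ∣ α_x` with
integral matrices `α_x` of determinant `n` permuted by right multiplication with `γ`, then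
`r_{f'}(γ) = Σ_x r_f(γ'_x) ⋆ α_{σ x}`. -/
theorem periodPoly_hecke_general (hk : 2 ≤ k) (D : EichlerData N k) {ι : Type} [Fintype ι]
    (α : ι → GL (Fin 2) ℝ) (n : ℕ) (hn : n ≠ 0) (hdet : ∀ x, (α x).det.val = n)
    (a b c d : ι → ℤ) (h00 : ∀ x, α x 0 0 = a x) (h01 : ∀ x, α x 0 1 = b x)
    (h10 : ∀ x, α x 1 0 = c x) (h11 : ∀ x, α x 1 1 = d x)
    (σ : Equiv.Perm ι) (γ : ↥(Gamma0 N)) (γ' : ι → ↥(Gamma0 N))
    (hmul : ∀ x, α x * Matrix.SpecialLinearGroup.mapGL ℝ γ.1 =
      Matrix.SpecialLinearGroup.mapGL ℝ (γ' x).1 * α (σ x))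
    (f f' : CuspForm (Gamma0 N) k)
    (hF : D.F f' = (n : ℂ) ^ (k - 1) • ∑ x, (D.F f) ∣[2 - k] α x) :
    periodPoly D γ f' = ∑ x, polyAct (k - 2).toNat (a (σ x)) (b (σ x)) (c (σ x)) (d (σ x))
      (periodPoly D (γ' x) f) := by
  apply periodPoly_unique
  have hnC : (n : ℂ) ≠ 0 := by exact_mod_cast hn
  have hpow : (n : ℂ) ^ (k - 1) = (n : ℂ) ^ ((k - 2).toNat + 1) := by
    rw [← zpow_natCast]
    congr 1
    push_cast
    rw [Int.toNat_of_nonneg (by omega)]
    ring
  have hterm : ∀ x, polyFun (polyAct (k - 2).toNat (a (σ x)) (b (σ x)) (c (σ x)) (d (σ x))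
      (periodPoly D (γ' x) f)) =
      (n : ℂ) ^ (k - 1) • (((D.F f) ∣[2 - k] α x) ∣[2 - k]
        (Matrix.SpecialLinearGroup.mapGL ℝ γ.1) - (D.F f) ∣[2 - k] α (σ x)) := by
    intro x
    have hpos : 0 < (α (σ x)).det.val := by
      rw [hdet]
      exact_mod_cast Nat.pos_of_ne_zero hn
    have h1 := slash_polyFun (k - 2).toNat (α (σ x)) hpos (a (σ x)) (b (σ x)) (c (σ x))
      (d (σ x)) (h00 _) (h01 _) (h10 _) (h11 _) (periodPoly D (γ' x) f)
      (periodPoly_natDegree_le D (γ' x) f)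
    rw [← two_sub_eq_neg_toNat hk, hdet, polyFun_periodPoly, slash_sub,
      ← SlashAction.slash_mul, ← hmul x, SlashAction.slash_mul] at h1
    rw [h1, hpow, smul_smul]
    simp only [Complex.ofReal_natCast]
    rw [mul_inv_cancel₀ (pow_ne_zero _ hnC), one_smul]
  rw [polyFun_sum, Finset.sum_congr rfl (fun x _ => hterm x), ← Finset.smul_sum,
    Finset.sum_sub_distrib, hF, mapGL_smul_slash, SlashAction.sum_slash, smul_sub]
  congr 2
  exact Equiv.sum_comp σ (fun x => (D.F f) ∣[2 - k] α x)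


theorem periodCoeff_hecke_general (hk : 2 ≤ k) (D : EichlerData N k) {ι : Type} [Fintype ι]
    (α : ι → GL (Fin 2) ℝ) (n : ℕ) (hn : n ≠ 0) (hdet : ∀ x, (α x).det.val = n)
    (a b c d : ι → ℤ) (h00 : ∀ x, α x 0 0 = a x) (h01 : ∀ x, α x 0 1 = b x)
    (h10 : ∀ x, α x 1 0 = c x) (h11 : ∀ x, α x 1 1 = d x)
    (σ : Equiv.Perm ι) (γ : ↥(Gamma0 N)) (γ' : ι → ↥(Gamma0 N))
    (hmul : ∀ x, α x * Matrix.SpecialLinearGroup.mapGL ℝ γ.1 =
      Matrix.SpecialLinearGroup.mapGL ℝ (γ' x).1 * α (σ x))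
    (T : Module.End ℂ (CuspForm (Gamma0 N) k))
    (hF : ∀ f, D.F (T f) = (n : ℂ) ^ (k - 1) • ∑ x, (D.F f) ∣[2 - k] α x)
    (j : Fin ((k - 2).toNat + 1)) :
    (periodCoeff D γ j) ∘ₗ T ∈ Submodule.span ℤ
      (Set.range fun x : ↥(Gamma0 N) × Fin ((k - 2).toNat + 1) => periodCoeff D x.1 x.2) := by
  have h : (periodCoeff D γ j) ∘ₗ T = ∑ x : ι, ∑ i : Fin ((k - 2).toNat + 1),
      (polyActMatrix (k - 2).toNat (a (σ x)) (b (σ x)) (c (σ x)) (d (σ x)) j i) •
        periodCoeff D (γ' x) i := by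
    ext f
    rw [LinearMap.comp_apply, periodCoeff_apply,
      periodPoly_hecke_general hk D α n hn hdet a b c d h00 h01 h10 h11 σ γ γ' hmul f (T f)
        (hF f),
      Polynomial.finsetSum_coeff, LinearMap.sum_apply]
    refine Finset.sum_congr rfl fun x _ => ?_
    rw [polyAct_coeff_fin, LinearMap.sum_apply]
    refine Finset.sum_congr rfl fun i _ => ?_
    rw [LinearMap.smul_apply, periodCoeff_apply, zsmul_eq_mul]
  rw [h]
  exact Submodule.sum_mem _ fun x _ => Submodule.sum_mem _ fun i _ =>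
    Submodule.smul_mem _ _ (Submodule.subset_span ⟨(γ' x, i), rfl⟩)


section Hecke

open P2MW.S_ModularForm_heckeT_slash_eq_self_of_mem_Gamma0.ModularForm.HeckeSlashInvariance

theorem periodCoeff_heckeT (hk : 2 ≤ k) (D : EichlerData N k) (p : ℕ) (hp : p.Prime)
    (hpN : ¬ p ∣ N) (γ : ↥(Gamma0 N)) (j : Fin ((k - 2).toNat + 1)) :
    (periodCoeff D γ j) ∘ₗ (CuspForm.heckeTLin k hp hpN) ∈ Submodule.span ℤ
      (Set.range fun x : ↥(Gamma0 N) × Fin ((k - 2).toNat + 1) => periodCoeff D x.1 x.2) := by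
  haveI : Fact p.Prime := ⟨hp⟩
  haveI : NeZero p := ⟨hp.ne_zero⟩
  have hγ : (N : ℤ) ∣ γ.1 1 0 :=
    (ZMod.intCast_zmod_eq_zero_iff_dvd _ _).mp (Gamma0_mem.mp γ.2)
  choose g' hg' hmul using fun x => heckeRep_mul hpN γ.1 hγ x
  have hg'mem : ∀ x, g' x ∈ Gamma0 N := fun x =>
    Gamma0_mem.mpr ((ZMod.intCast_zmod_eq_zero_iff_dvd _ _).mpr (hg' x))
  refine periodCoeff_hecke_general hk D (heckeRep p) p hp.ne_zero ?_
    (fun x => x.elim (p : ℤ) (fun _ => 1)) (fun x => x.elim 0 (fun j => (j.val : ℤ)))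
    (fun _ => 0) (fun x => x.elim 1 (fun _ => (p : ℤ)))
    ?_ ?_ ?_ ?_ (MulAction.toPerm (redMatrix p γ.1)) γ (fun x => ⟨g' x, hg'mem x⟩) hmul _ ?_ j
  · intro x
    induction x using OnePoint.rec with
    | infty => exact ModularForm.det_heckeDiagMatrix hp.ne_zero
    | coe j => exact ModularForm.det_heckeMatrix hp.ne_zero _
  · intro x
    induction x using OnePoint.rec with
    | infty => simp [heckeRep, ModularForm.val_heckeDiagMatrix hp.ne_zero]
    | coe j => simp [heckeRep, ModularForm.val_heckeMatrix hp.ne_zero]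
  · intro x
    induction x using OnePoint.rec with
    | infty => simp [heckeRep, ModularForm.val_heckeDiagMatrix hp.ne_zero]
    | coe j => simp [heckeRep, ModularForm.val_heckeMatrix hp.ne_zero]
  · intro x
    induction x using OnePoint.rec with
    | infty => simp [heckeRep, ModularForm.val_heckeDiagMatrix hp.ne_zero]
    | coe j => simp [heckeRep, ModularForm.val_heckeMatrix hp.ne_zero]
  · intro x
    induction x using OnePoint.rec with
    | infty => simp [heckeRep, ModularForm.val_heckeDiagMatrix hp.ne_zero]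
    | coe j => simp [heckeRep, ModularForm.val_heckeMatrix hp.ne_zero]
  · intro f
    rw [← heckeT_eq_sum_onePoint]
    exact D.heckeT p hp hpN f

theorem periodCoeff_heckeU (hk : 2 ≤ k) (D : EichlerData N k) (p : ℕ) (hp : p.Prime)
    (hpN : p ∣ N) (γ : ↥(Gamma0 N)) (j : Fin ((k - 2).toNat + 1)) :
    (periodCoeff D γ j) ∘ₗ (CuspForm.heckeULin k hpN) ∈ Submodule.span ℤ
      (Set.range fun x : ↥(Gamma0 N) × Fin ((k - 2).toNat + 1) => periodCoeff D x.1 x.2) := by
  haveI : NeZero p := ⟨hp.ne_zero⟩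
  have hγ : (N : ℤ) ∣ γ.1 1 0 :=
    (ZMod.intCast_zmod_eq_zero_iff_dvd _ _).mp (Gamma0_mem.mp γ.2)
  have hc : (p : ℤ) ∣ γ.1 1 0 := (Int.natCast_dvd_natCast.mpr hpN).trans hγ
  choose g' hg' hmul using fun x => heckeMatrix_mul_of_dvd γ.1 hc x
  have hg'mem : ∀ x, g' x ∈ Gamma0 N := fun x => by
    rw [Gamma0_mem, hg' x]
    push_cast
    rw [Gamma0_mem.mp γ.2, mul_zero]
  refine periodCoeff_hecke_general hk D (fun x : ZMod p => ModularForm.heckeMatrix p x.val) p
    hp.ne_zero ?_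
    (fun _ => 1) (fun x => (x.val : ℤ)) (fun _ => 0) (fun _ => (p : ℤ))
    ?_ ?_ ?_ ?_ (affinePerm γ.1 ((ZMod.intCast_zmod_eq_zero_iff_dvd _ _).mpr hc)) γ
    (fun x => ⟨g' x, hg'mem x⟩) hmul _ ?_ j
  · intro x
    exact ModularForm.det_heckeMatrix hp.ne_zero _
  · intro x
    simp [ModularForm.val_heckeMatrix hp.ne_zero]
  · intro x
    simp [ModularForm.val_heckeMatrix hp.ne_zero]
  · intro x
    simp [ModularForm.val_heckeMatrix hp.ne_zero]
  · intro x
    simp [ModularForm.val_heckeMatrix hp.ne_zero]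
  · intro f
    rw [← heckeU_eq_sum_zmod]
    exact D.heckeU p hp hpN f

end Hecke

/-- Glue: Eichler data give period functionals. -/
noncomputable def periodFunctionalsOfEichlerData (hk : 2 ≤ k) (D : EichlerData N k) :
    PeriodFunctionals N k (Fin ((k - 2).toNat + 1)) where
  c := periodCoeff D
  one := periodCoeff_one D
  mul := periodCoeff_mul hk D
  inv := periodCoeff_inv hk D
  sep := periodCoeff_sep D
  heckeT := fun p hp hpN γ j => periodCoeff_heckeT hk D p hp hpN γ j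
  heckeU := fun p hp hpN γ j => periodCoeff_heckeU hk D p hp hpN γ j

/-- S22 from Eichler data in all even weights `≥ 2`. -/
theorem heckeAlgebra_finite_of_eichlerData
    (hD : ∀ (N : ℕ) [NeZero N] (k : ℤ), 2 ≤ k → Even k → Nonempty (EichlerData N k))
    (N : ℕ) [NeZero N] (k : ℤ) (S : Set ℕ) :
    Module.Finite ℤ (CuspForm.heckeAlgebra N k S) :=
  heckeAlgebra_finite_of_main_case
    (fun N _ k hk hev => by
      obtain ⟨D⟩ := hD N k hk hev
      exact ⟨Fin ((k - 2).toNat + 1), inferInstance, ⟨periodFunctionalsOfEichlerData hk D⟩⟩)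
    N k S

end Fermat.Agent.S22
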